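/-
GATE-C / C3 (LOCAL) — HERBRAND, last step (helper67): the cyclic input of helper3's `InvUpper`.

For a finite cyclic Galois extension `L/K` of finite extensions of `ℚ_q` (abstract types):
`|H²(Gal(L/K), Lˣ)| = [L : K]`.  In particular `InvUpper.CyclicInput q` holds.

Glue of `Herbrand/Cohom.lean` (`card_H2_of_isCyclic`, abstract complete-DVR binders) with
helper60's `UnitBall.lean` (`padicVS q L` : DVR, finite residue field, adically complete,
Galois-stable, bottom field nontrivial).
-/
import Fermat.Agent.GC.Local.Herbrand.Cohom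
import Fermat.Agent.GC.Local.UnitBall
import Fermat.Agent.GC.Local.InvUpper

set_option autoImplicit false

open scoped Padic
open groupCohomology

namespace Fermat.Agent.GC.Local.Herbrand

/-- `|H²(Gal(L/K), Lˣ)| = [L:K]` for a cyclic extension of `q`-adic fields. -/
theorem card_H2_padic_of_isCyclic (q : ℕ) [Fact q.Prime] (K L : Type) [Field K] [Field L]
    [Algebra ℚ_[q] K] [Algebra ℚ_[q] L] [Algebra K L] [IsScalarTower ℚ_[q] K L]
    [FiniteDimensional ℚ_[q] L] [FiniteDimensional K L] [IsGalois K L]
    [IsCyclic (L ≃ₐ[K] L)] :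
    Nat.card (H2 (Rep.ofAlgebraAutOnUnits K L)) = Module.finrank K L := by
  have := Fermat.Agent.GC.Local.padicVS_isDiscreteValuationRing q L
  have := Fermat.Agent.GC.Local.padicVS_finite_residueField q L
  have := Fermat.Agent.GC.Local.padicVS_isAdicComplete q L
  exact card_H2_of_isCyclic (Fermat.Agent.GC.Local.padicVS q L)
    (fun σ x hx => Fermat.Agent.GC.Local.padicVS_galStable q L K σ x hx)
    (Fermat.Agent.GC.Local.padicVS_bottomNontrivial q L K)

/-- the norm-index form: `[Kˣ : N Lˣ] = [L:K]` for a cyclic extension of `q`-adic fields. -/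
theorem norm_index_padic_of_isCyclic (q : ℕ) [Fact q.Prime] (K L : Type*) [Field K] [Field L]
    [Algebra ℚ_[q] K] [Algebra ℚ_[q] L] [Algebra K L] [IsScalarTower ℚ_[q] K L]
    [FiniteDimensional ℚ_[q] L] [FiniteDimensional K L] [IsGalois K L]
    [IsCyclic (L ≃ₐ[K] L)] :
    (MonoidHom.range (Units.map (Algebra.norm K : L →* K))).index = Module.finrank K L := by
  have := Fermat.Agent.GC.Local.padicVS_isDiscreteValuationRing q L
  have := Fermat.Agent.GC.Local.padicVS_finite_residueField q L
  have := Fermat.Agent.GC.Local.padicVS_isAdicComplete q L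
  exact norm_index_eq_finrank (Fermat.Agent.GC.Local.padicVS q L)
    (fun σ x hx => Fermat.Agent.GC.Local.padicVS_galStable q L K σ x hx)
    (Fermat.Agent.GC.Local.padicVS_bottomNontrivial q L K)

/-- **The cyclic input of `InvUpper`** (helper3, board 1674), verbatim. -/
theorem cyclicInput (q : ℕ) [Fact q.Prime] : Fermat.Agent.GC.Local.InvUpper.CyclicInput q := by
  intro K L _ _ _ _ _ _ _ _ _ hprime
  have : IsCyclic (L ≃ₐ[K] L) := by
    have : Fact (Nat.card (L ≃ₐ[K] L)).Prime := ⟨hprime⟩
    exact isCyclic_of_prime_card rfl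
  have hcard : Nat.card (H2 (Rep.ofAlgebraAutOnUnits K L)) = Nat.card (L ≃ₐ[K] L) := by
    rw [card_H2_padic_of_isCyclic q K L, IsGalois.card_aut_eq_finrank]
  refine ⟨?_, hcard.dvd⟩
  exact Nat.finite_of_card_ne_zero (by rw [hcard]; exact hprime.ne_zero)

end Fermat.Agent.GC.Local.Herbrand
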