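/-
GATE-C / C3 (LOCAL) — the UNCONDITIONAL local second inequality (helper67).

For every finite Galois extension `L/K` of finite extensions of `ℚ_q` (abstract types):
`H²(Gal(L/K), Lˣ)` is finite of order dividing `[L : K]`.

= helper3's `InvUpper.primaryPart_H2_card_dvd` (devissage over helper11's layer classes) with
both hypotheses discharged (`InfRes2 ℤ` by helper1/helper97, `CyclicInput q` by HERBRAND) and
the primary parts assembled:

* `finite_card_dvd_of_primaryPart` : an abelian group killed by `n` whose `ℓ`-primary parts are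
  finite of order dividing `ℓ ^ v_ℓ(n)` is finite of order dividing `n`;
* `card_nsmul_groupCohomology_succ` : `|G| • x = 0` on `Hᵐ⁺¹(G, A)` (helper52's CorRes);
* `card_H2_dvd_finrank`.
-/
import Fermat.Agent.GC.Local.Herbrand.CyclicInput
import Fermat.Agent.GC.Global.DevissageFinal

set_option autoImplicit false

open scoped Padic
open CategoryTheory groupCohomology
open Fermat.Agent.GC.Global.Devissage

universe u

namespace Fermat.Agent.GC.Local.Herbrand

/-- An abelian group killed by `n ≠ 0` all of whose primary parts are finite is finite. -/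
theorem finite_of_primaryPart_finite {A : Type*} [AddCommGroup A] (n : ℕ) (hn : n ≠ 0)
    (htors : ∀ x : A, n • x = 0)
    (h : ∀ ℓ : ℕ, ℓ.Prime → Finite (primaryPart ℓ A)) : Finite A := by
  classical
  have hcop : ((n.primeFactors : Finset ℕ) : Set ℕ).Pairwise
      (Function.onFun IsCoprime fun ℓ : ℕ => ((ℓ : ℤ) ^ n.factorization ℓ)) := by
    intro a ha b hb hab
    have ha' := Nat.prime_of_mem_primeFactors ha
    have hb' := Nat.prime_of_mem_primeFactors hb
    exact (Nat.isCoprime_iff_coprime.2 ((Nat.coprime_primes ha' hb').2 hab)).pow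
  have hsup := Submodule.iSup_torsionBy_eq_torsionBy_prod (R := ℤ) (M := A) hcop
  have hprod : (∏ ℓ ∈ n.primeFactors, ((ℓ : ℤ) ^ n.factorization ℓ)) = (n : ℤ) := by
    have h1 := Nat.prod_factorization_pow_eq_self hn
    rw [Finsupp.prod, Nat.support_factorization] at h1
    exact_mod_cast h1
  have htop : Submodule.torsionBy ℤ A (n : ℤ) = ⊤ := by
    rw [eq_top_iff]
    intro x _
    rw [Submodule.mem_torsionBy_iff]
    simpa using htors x
  rw [hprod, htop] at hsup
  have hpiece : ∀ ℓ ∈ n.primeFactors,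
      (Submodule.torsionBy ℤ A ((ℓ : ℤ) ^ n.factorization ℓ)).FG := by
    intro ℓ hℓ
    have hf := h ℓ (Nat.prime_of_mem_primeFactors hℓ)
    have : Finite (Submodule.torsionBy ℤ A ((ℓ : ℤ) ^ n.factorization ℓ)) := by
      refine Finite.of_injective
        (fun x => (⟨x.1, n.factorization ℓ, ?_⟩ : primaryPart ℓ A)) ?_
      · have hx := x.2
        rw [Submodule.mem_torsionBy_iff] at hx
        have h2 : ((ℓ ^ n.factorization ℓ : ℕ) : ℤ) • (x : A) = 0 := by
          push_cast; exact hx
        rwa [natCast_zsmul] at h2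
      · intro x y hxy
        exact Subtype.ext (congrArg (fun z : primaryPart ℓ A => (z : A)) hxy)
    have hmf : Module.Finite ℤ (Submodule.torsionBy ℤ A ((ℓ : ℤ) ^ n.factorization ℓ)) :=
      Module.Finite.of_finite
    exact (Submodule.fg_top _).1 hmf.fg_top
  have hfg : (⊤ : Submodule ℤ A).FG := by
    rw [← hsup]
    exact Submodule.fg_biSup _ _ hpiece
  have : Module.Finite ℤ A := ⟨hfg⟩
  refine Module.finite_of_fg_torsion A ?_
  intro x
  exact ⟨⟨(n : ℤ), mem_nonZeroDivisors_of_ne_zero (by exact_mod_cast hn)⟩, by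
    simpa using htors x⟩

/-- An abelian group killed by `n ≠ 0` whose `ℓ`-primary part is finite of order dividing
`ℓ ^ v_ℓ(n)` for every prime `ℓ` is finite of order dividing `n`. -/
theorem finite_card_dvd_of_primaryPart {A : Type*} [AddCommGroup A] (n : ℕ) (hn : n ≠ 0)
    (htors : ∀ x : A, n • x = 0)
    (h : ∀ ℓ : ℕ, ℓ.Prime → Finite (primaryPart ℓ A) ∧
      Nat.card (primaryPart ℓ A) ∣ ℓ ^ n.factorization ℓ) :
    Finite A ∧ Nat.card A ∣ n := by
  classical
  have hfin : Finite A := finite_of_primaryPart_finite n hn htors fun ℓ hℓ => (h ℓ hℓ).1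
  refine ⟨hfin, ?_⟩
  have hcardA : Nat.card A ≠ 0 := Nat.card_pos.ne'
  rw [← Nat.factorization_prime_le_iff_dvd hcardA hn]
  intro ℓ hℓ
  have : Fact ℓ.Prime := ⟨hℓ⟩
  obtain ⟨P⟩ : Nonempty (Sylow ℓ (Multiplicative A)) := inferInstance
  have hP : Nat.card P = ℓ ^ (Nat.card A).factorization ℓ := by
    have := P.card_eq_multiplicity
    rwa [Nat.card_congr (Multiplicative.toAdd (α := A))] at this
  have hfinP := (h ℓ hℓ).1
  have hinj : Nat.card P ≤ Nat.card (primaryPart ℓ A) := by
    refine Nat.card_le_card_of_injective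
      (fun g : P => (⟨Multiplicative.toAdd g.1, ?_⟩ : primaryPart ℓ A)) ?_
    · obtain ⟨k, hk⟩ := P.isPGroup' g
      refine ⟨k, ?_⟩
      have h1 := congrArg (fun x : P => Multiplicative.toAdd (x : Multiplicative A)) hk
      simpa using h1
    · intro g g' hgg
      have h1 := congrArg (fun z : primaryPart ℓ A => (z : A)) hgg
      exact Subtype.ext (Multiplicative.toAdd.injective h1)
  have hle := Nat.le_of_dvd (pow_pos hℓ.pos _) (h ℓ hℓ).2
  have h3 : ℓ ^ (Nat.card A).factorization ℓ ≤ ℓ ^ n.factorization ℓ := by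
    rw [← hP]; exact hinj.trans hle
  exact (Nat.pow_le_pow_iff_right hℓ.one_lt).1 h3

/-- `|G| • x = 0` on `Hᵐ⁺¹(G, A)`. -/
theorem card_nsmul_groupCohomology_succ {k G : Type u} [CommRing k] [Group G] [Finite G]
    (A : Rep.{u} k G) (m : ℕ) (x : groupCohomology A (m + 1)) : Nat.card G • x = 0 := by
  have hz := isZero_groupCohomology_succ_of_subsingleton
    (Rep.res (⊥ : Subgroup G).subtype A) m
  have h0 : map (⊥ : Subgroup G).subtype (𝟙 (Rep.res (⊥ : Subgroup G).subtype A)) (m + 1) x
      = 0 := by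
    have := (ModuleCat.isZero_iff_subsingleton.1 hz)
    exact Subsingleton.elim _ _
  have := Fermat.Agent.GC.Tate.index_nsmul_eq_zero_of_res_eq_zero (⊥ : Subgroup G) A (m + 1) x h0
  rwa [Subgroup.index_bot] at this

/-- **The local second inequality**, unconditional: for a finite Galois extension `L/K` of
`q`-adic fields, `H²(Gal(L/K), Lˣ)` is finite of order dividing `[L:K]`. -/
theorem card_H2_dvd_finrank (q : ℕ) [Fact q.Prime] (K L : Type) [Field K] [Field L]
    [Algebra ℚ_[q] K] [Algebra ℚ_[q] L] [Algebra K L] [IsScalarTower ℚ_[q] K L]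
    [FiniteDimensional ℚ_[q] L] [FiniteDimensional K L] [IsGalois K L] :
    Finite (H2 (Rep.ofAlgebraAutOnUnits K L)) ∧
      Nat.card (H2 (Rep.ofAlgebraAutOnUnits K L)) ∣ Module.finrank K L := by
  have hn : Module.finrank K L ≠ 0 := Module.finrank_pos.ne'
  refine finite_card_dvd_of_primaryPart (Module.finrank K L) hn ?_ ?_
  · intro x
    have := card_nsmul_groupCohomology_succ (Rep.ofAlgebraAutOnUnits K L) 1 x
    rwa [IsGalois.card_aut_eq_finrank] at this
  · intro ℓ hℓ
    have : Fact ℓ.Prime := ⟨hℓ⟩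
    exact Fermat.Agent.GC.Local.InvUpper.primaryPart_H2_card_dvd
      Fermat.Agent.GC.Global.DevissageFinal.infRes2 (cyclicInput q) ℓ K L

end Fermat.Agent.GC.Local.Herbrand
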