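/-
GATE-C / C3 (LOCAL) — quotient layers of a local Galois extension (helper67).

For a finite Galois extension `L/K` of finite extensions of `ℚ_q`, every subgroup
`V ≤ Gal(L/K)` and every normal subgroup `U' ◁ V` with cyclic quotient (e.g. of prime index `p`):
the layer module `(Lˣ)^{U'}` (a `V/U'`-module) has `H¹ = 0` and `|H²| = |V/U'|`.

This is `LayerHyp p (Lˣ)` of helper97's `DevissageSub.lean` with EQUALITY in degree 2
(input (GL-1) of the global first inequality).  Glue of helper3's `GalPair`/`LocClass`
(local Galois pairs are closed under subgroups and quotients) with HERBRAND.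
-/
import Fermat.Agent.GC.Local.Herbrand.CyclicInput
import Fermat.Agent.GC.Global.DevissageSub

set_option autoImplicit false

open scoped Padic
open CategoryTheory groupCohomology Rep
open Fermat.Agent.GC.Global.Devissage Fermat.Agent.GC.Local.GalPair
open Fermat.Agent.GC.Local.InvUpper

namespace Fermat.Agent.GC.Local.Herbrand

/-- A pair in helper3's `LocClass` (isomorphic to `(Gal(L/K), Lˣ)`, `L/K` finite Galois
`q`-adic) with CYCLIC group has `H¹ = 0` and `|H²| = |Q|`. -/
theorem locClass_cyclic (q : ℕ) [Fact q.Prime] {Q : Type} [Group Q] [Finite Q] [IsCyclic Q]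
    (B : Rep.{0} ℤ Q) (hB : LocClass q Q B) :
    Limits.IsZero (groupCohomology B 1) ∧ Finite (groupCohomology B 2) ∧
      Nat.card (groupCohomology B 2) = Nat.card Q := by
  obtain ⟨K, L, _, _, _, _, _, _, _, _, _, ⟨φ⟩⟩ := hB
  have hcyc : IsCyclic (L ≃ₐ[K] L) := isCyclic_of_surjective φ.e φ.e.surjective
  have hcardQ : Nat.card Q = Nat.card (L ≃ₐ[K] L) := Nat.card_congr φ.e.toEquiv
  have h2 : Nat.card (groupCohomology (Rep.ofAlgebraAutOnUnits K L) 2) =
      Nat.card (L ≃ₐ[K] L) := by
    have := card_H2_padic_of_isCyclic q K L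
    rw [IsGalois.card_aut_eq_finrank]
    exact this
  have hiso2 : Nat.card (groupCohomology B 2) =
      Nat.card (groupCohomology (Rep.ofAlgebraAutOnUnits K L) 2) :=
    Nat.card_congr (φ.cohIso 2).toLinearEquiv.toEquiv
  have hcard : Nat.card (groupCohomology B 2) = Nat.card Q := by
    rw [hiso2, h2, hcardQ]
  refine ⟨?_, ?_, hcard⟩
  · refine Limits.IsZero.of_iso ?_ (φ.cohIso 1)
    rw [ModuleCat.isZero_iff_subsingleton]
    exact (groupCohomology.H1ofAutOnUnitsUnique K L).instSubsingleton
  · exact Nat.finite_of_card_ne_zero (by rw [hcard]; exact Nat.card_pos.ne')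

section Layer

variable (q : ℕ) [Fact q.Prime] (K L : Type) [Field K] [Field L]
  [Algebra ℚ_[q] K] [Algebra ℚ_[q] L] [Algebra K L] [IsScalarTower ℚ_[q] K L]
  [FiniteDimensional ℚ_[q] L] [FiniteDimensional K L] [IsGalois K L]

include q

/-- every quotient layer of a local Galois pair is a local Galois pair. -/
theorem locClass_layer (V : Subgroup (L ≃ₐ[K] L)) (U' : Subgroup V) [U'.Normal] :
    LocClass q (V ⧸ U')
      ((Rep.res V.subtype (Rep.ofAlgebraAutOnUnits K L)).quotientToInvariants U') := by
  have hB : LocClass q (L ≃ₐ[K] L) (Rep.ofAlgebraAutOnUnits K L) :=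
    ⟨K, L, inferInstance, inferInstance, inferInstance, inferInstance, inferInstance,
      inferInstance, inferInstance, inferInstance, inferInstance, ⟨PairIso.refl _⟩⟩
  have h1 := (isLayerClass_locClass q).res (Rep.ofAlgebraAutOnUnits K L) V hB
  exact (isLayerClass_locClass q).quot _ U' h1

/-- **Local layers, cyclic quotient**: `H¹(V/U', (Lˣ)^{U'}) = 0`, `|H²(V/U', (Lˣ)^{U'})| = |V/U'|`. -/
theorem local_layer_card_of_isCyclic (V : Subgroup (L ≃ₐ[K] L)) (U' : Subgroup V) [U'.Normal]
    [IsCyclic (V ⧸ U')] :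
    Limits.IsZero (groupCohomology
        ((Rep.res V.subtype (Rep.ofAlgebraAutOnUnits K L)).quotientToInvariants U') 1) ∧
      Finite (groupCohomology
        ((Rep.res V.subtype (Rep.ofAlgebraAutOnUnits K L)).quotientToInvariants U') 2) ∧
      Nat.card (groupCohomology
        ((Rep.res V.subtype (Rep.ofAlgebraAutOnUnits K L)).quotientToInvariants U') 2) =
        U'.index :=
  locClass_cyclic q _ (locClass_layer q K L V U')

/-- **Local layers of prime index `p`**: `H¹ = 0` and `|H²| = p`. -/
theorem local_layer_card {p : ℕ} (hp : p.Prime) (V : Subgroup (L ≃ₐ[K] L)) (U' : Subgroup V)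
    [U'.Normal] (h : U'.index = p) :
    Limits.IsZero (groupCohomology
        ((Rep.res V.subtype (Rep.ofAlgebraAutOnUnits K L)).quotientToInvariants U') 1) ∧
      Finite (groupCohomology
        ((Rep.res V.subtype (Rep.ofAlgebraAutOnUnits K L)).quotientToInvariants U') 2) ∧
      Nat.card (groupCohomology
        ((Rep.res V.subtype (Rep.ofAlgebraAutOnUnits K L)).quotientToInvariants U') 2) = p := by
  have hcard : Nat.card (V ⧸ U') = p := by rw [← h]; rfl
  have : Fact p.Prime := ⟨hp⟩
  have : IsCyclic (V ⧸ U') := isCyclic_of_prime_card hcard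
  have := local_layer_card_of_isCyclic q K L V U'
  rwa [h] at this

/-- helper97's layer hypothesis for the local module `Lˣ`, every prime `p`. -/
theorem local_layerHyp {p : ℕ} (hp : p.Prime) :
    Fermat.Agent.GC.Global.DevissageSub.LayerHyp p (Rep.ofAlgebraAutOnUnits K L) := by
  intro V U' _ h
  obtain ⟨h1, h2, h3⟩ := local_layer_card q K L hp V U' h
  exact ⟨h1, h2, h3.dvd⟩

end Layer

end Fermat.Agent.GC.Local.Herbrand
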