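/-
GATE-C / C3 (LOCAL) — the local class module (helper67).

(a) GENERIC: a `G`-module `C` (finite `G`) with `|H²(H, C)| = |H|` for all subgroups and a class
    `u ∈ H²(G, C)` of order `|G|`: for every `H`, `res u` generates `H²(H, C)`
    (`cor (res u) = [G:H] • u` has order `|H|`).  With `H¹ = 0` this is a `ClassModule` of C2.
(b) LOCAL: for finite Galois `L/K` of `q`-adic fields, given the lower bound
    (`LowerInput q`: some class of `H²(Gal(L/K), Lˣ)` has order `[L:K]`):
    `|H²| = [L:K]`, `H²` cyclic, the local `ClassModule`, and `H³(H, Lˣ) = 0` for all `H`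
    (Tate–Nakayama, C2 `ClassModule.isZero_H3`).
-/
import Fermat.Agent.GC.Local.Herbrand.UpperFinal
import Fermat.Agent.GC.Tate.Final

set_option autoImplicit false

open scoped Padic
open CategoryTheory groupCohomology
open Fermat.Agent.GC.Tate Fermat.Agent.GC.Local.GalPair

namespace Fermat.Agent.GC.Local.Herbrand

section Generic

variable {G : Type} [Group G] [Finite G]

/-- If `u ∈ H²(G, C)` has order `|G|` and `|H²(H, C)| = |H|`, then `res u` has order `|H|`. -/
theorem addOrderOf_resH2 (C : Rep ℤ G) (u : H2 C) (hu : addOrderOf u = Nat.card G)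
    (H : Subgroup G) (hcard : Nat.card (H2 (resSub C H)) = Nat.card H) :
    addOrderOf ((resH2 C H).hom u) = Nat.card H := by
  have hfin : Finite (H2 (resSub C H)) :=
    Nat.finite_of_card_ne_zero (by rw [hcard]; exact Nat.card_pos.ne')
  set y := (resH2 C H).hom u with hy
  have hcor : (cor H C 2).hom y = H.index • u := cor_res_apply H C 2 u
  have h1 : addOrderOf (H.index • u) = Nat.card H := by
    rw [addOrderOf_nsmul' u Subgroup.index_ne_zero_of_finite, hu]
    have hmul : Nat.card H * H.index = Nat.card G := H.card_mul_index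
    rw [Nat.gcd_eq_right ⟨Nat.card H, by rw [← hmul, mul_comm]⟩, ← hmul]
    exact Nat.mul_div_cancel _ (Nat.pos_of_ne_zero (Subgroup.index_ne_zero_of_finite))
  have h2 : Nat.card H ∣ addOrderOf y := by
    rw [← h1, ← hcor]
    exact addOrderOf_map_dvd (cor H C 2).hom.toAddMonoidHom y
  have h3 : addOrderOf y ∣ Nat.card H := by
    rw [← hcard]; exact addOrderOf_dvd_natCard y
  exact Nat.dvd_antisymm h3 h2

/-- **`res u` generates `H²(H, C)`.** -/
theorem exists_zsmul_res_of_card (C : Rep ℤ G) (u : H2 C) (hu : addOrderOf u = Nat.card G)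
    (H : Subgroup G) (hcard : Nat.card (H2 (resSub C H)) = Nat.card H)
    (x : H2 (resSub C H)) : ∃ n : ℤ, x = n • (resH2 C H).hom u := by
  have hfin : Finite (H2 (resSub C H)) :=
    Nat.finite_of_card_ne_zero (by rw [hcard]; exact Nat.card_pos.ne')
  have hord := addOrderOf_resH2 C u hu H hcard
  have htop : AddSubgroup.zmultiples ((resH2 C H).hom u) = ⊤ := by
    rw [← AddSubgroup.card_eq_iff_eq_top, Nat.card_zmultiples, hord, hcard]
  have hx : x ∈ AddSubgroup.zmultiples ((resH2 C H).hom u) := by rw [htop]; trivial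
  obtain ⟨n, hn⟩ := AddSubgroup.mem_zmultiples_iff.1 hx
  exact ⟨n, hn.symm⟩

/-- The class module attached to counting data. -/
noncomputable def classModuleOfCard (C : Rep ℤ G)
    (h1 : ∀ H : Subgroup G, Subsingleton (H1 (resSub C H)))
    (hcard : ∀ H : Subgroup G, Nat.card (H2 (resSub C H)) = Nat.card H)
    (u : H2 C) (hu : addOrderOf u = Nat.card G) : ClassModule G where
  C := C
  u := u
  h1 := h1
  h2_card := hcard
  h2_gen := fun H x => exists_zsmul_res_of_card C u hu H (hcard H) x

end Generic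

/-- The LOWER BOUND of the local class-formation axiom, as a hypothesis (helper3, `InvLower`):
`H²(Gal(L/K), Lˣ)` contains a class of order `[L:K]`. -/
def LowerInput (q : ℕ) [Fact q.Prime] : Prop :=
  ∀ (K L : Type) [Field K] [Field L] [Algebra ℚ_[q] K] [Algebra ℚ_[q] L] [Algebra K L]
    [IsScalarTower ℚ_[q] K L] [FiniteDimensional ℚ_[q] L] [FiniteDimensional K L] [IsGalois K L],
    ∃ u : H2 (Rep.ofAlgebraAutOnUnits K L), addOrderOf u = Module.finrank K L

section Local

variable {q : ℕ} [Fact q.Prime] (hlow : LowerInput q) (K L : Type) [Field K] [Field L]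
  [Algebra ℚ_[q] K] [Algebra ℚ_[q] L] [Algebra K L] [IsScalarTower ℚ_[q] K L]
  [FiniteDimensional ℚ_[q] L] [FiniteDimensional K L] [IsGalois K L]

include hlow

/-- **`|H²(Gal(L/K), Lˣ)| = [L:K]`** (given the lower bound). -/
theorem card_H2_eq_finrank :
    Nat.card (H2 (Rep.ofAlgebraAutOnUnits K L)) = Module.finrank K L := by
  obtain ⟨hfin, hdvd⟩ := card_H2_dvd_finrank q K L
  obtain ⟨u, hu⟩ := hlow K L
  refine Nat.dvd_antisymm hdvd ?_
  rw [← hu]
  exact addOrderOf_dvd_natCard u

/-- `H²(Gal(L/K), Lˣ)` is cyclic (given the lower bound). -/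
theorem isAddCyclic_H2 : IsAddCyclic (H2 (Rep.ofAlgebraAutOnUnits K L)) := by
  obtain ⟨hfin, -⟩ := card_H2_dvd_finrank q K L
  obtain ⟨u, hu⟩ := hlow K L
  exact isAddCyclic_of_addOrderOf_eq_card u (by rw [hu, card_H2_eq_finrank hlow K L])

/-- `|H²(H, Lˣ)| = |H|` for every subgroup `H ≤ Gal(L/K)`. -/
theorem card_H2_res (H : Subgroup (L ≃ₐ[K] L)) :
    Nat.card (H2 (resSub (Rep.ofAlgebraAutOnUnits K L) H)) = Nat.card H := by
  have := Fermat.Agent.GC.Local.InvUpper.isScalarTower_intermediate (R := ℚ_[q])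
    (IntermediateField.fixedField H)
  have : FiniteDimensional ℚ_[q] (IntermediateField.fixedField H) :=
    FiniteDimensional.left ℚ_[q] (IntermediateField.fixedField H) L
  have h1 : Nat.card (H2 (resSub (Rep.ofAlgebraAutOnUnits K L) H)) =
      Nat.card (H2 (Rep.ofAlgebraAutOnUnits (IntermediateField.fixedField H) L)) :=
    Nat.card_congr ((subPair K L H).cohIso 2).toLinearEquiv.toEquiv
  rw [h1, card_H2_eq_finrank hlow (IntermediateField.fixedField H) L,
    IntermediateField.finrank_fixedField_eq_card]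

omit hlow [IsGalois K L] in
/-- Hilbert 90 for every subgroup. -/
theorem subsingleton_H1_resSub (H : Subgroup (L ≃ₐ[K] L)) :
    Subsingleton (H1 (resSub (Rep.ofAlgebraAutOnUnits K L) H)) := by
  have hz : Limits.IsZero (groupCohomology (resSub (Rep.ofAlgebraAutOnUnits K L) H) 1) := by
    refine Limits.IsZero.of_iso ?_ ((subPair K L H).cohIso 1)
    rw [ModuleCat.isZero_iff_subsingleton]
    exact (groupCohomology.H1ofAutOnUnitsUnique (IntermediateField.fixedField H) L).instSubsingleton
  exact ModuleCat.isZero_iff_subsingleton.1 hz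

/-- **The local class module** `(Gal(L/K), Lˣ, u_{L/K})` (given the lower bound). -/
noncomputable def localClassModule : ClassModule (L ≃ₐ[K] L) :=
  classModuleOfCard (Rep.ofAlgebraAutOnUnits K L) (subsingleton_H1_resSub K L)
    (card_H2_res hlow K L) (hlow K L).choose
    (by rw [(hlow K L).choose_spec, IsGalois.card_aut_eq_finrank])

@[simp] lemma localClassModule_C :
    (localClassModule hlow K L).C = Rep.ofAlgebraAutOnUnits K L := rfl

/-- **Local `H³ = 0`** (Tate–Nakayama): `H³(H, Lˣ) = 0` for every `H ≤ Gal(L/K)`. -/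
theorem local_isZero_H3 (H : Subgroup (L ≃ₐ[K] L)) :
    Limits.IsZero (groupCohomology (resSub (Rep.ofAlgebraAutOnUnits K L) H) 3) :=
  (localClassModule hlow K L).isZero_H3 H

end Local

end Fermat.Agent.GC.Local.Herbrand
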