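/-
GATE-C / C3-HERBRAND (helper67).  (H1) successive approximation in a complete filtered
commutative group, and (H2) the "discrete integration" lemma on `ZMod m`.
Mathlib only.
-/
import Mathlib

set_option autoImplicit false
set_option linter.unusedSectionVars false

namespace Fermat.Agent.GC.Local.Herbrand

open Finset

section Approx

variable {V : Type*} [CommGroup V]

/-- **Successive approximation.**  `Vn` a decreasing filtration of a commutative group `V`,
separated and complete; `f g : V →* V` filtration preserving with `g ∘ f = 1`.  If on every graded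
piece `ker g ⊆ im f`, then `ker g ⊆ im f` on `Vn 0`. -/
theorem exists_preimage_of_graded (Vn : ℕ → Subgroup V) (f g : V →* V)
    (hf : ∀ n, ∀ x ∈ Vn n, f x ∈ Vn n)
    (hgf : ∀ x, g (f x) = 1)
    (hsep : ∀ x, (∀ n, x ∈ Vn n) → x = 1)
    (hcomp : ∀ y : ℕ → V, (∀ n, y n ∈ Vn n) →
      ∃ z, ∀ n, z / ∏ i ∈ Finset.range n, y i ∈ Vn n)
    (hgr : ∀ n, ∀ x ∈ Vn n, g x = 1 → ∃ y ∈ Vn n, x / f y ∈ Vn (n + 1))
    (x : V) (hx : x ∈ Vn 0) (hgx : g x = 1) : ∃ y ∈ Vn 0, f y = x := by
  classical
  -- the choice function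
  have hch : ∀ n, ∀ t : V, ∃ y : V, (t ∈ Vn n → g t = 1 → y ∈ Vn n ∧ t / f y ∈ Vn (n + 1)) := by
    intro n t
    by_cases h : t ∈ Vn n ∧ g t = 1
    · obtain ⟨y, hy, hy'⟩ := hgr n t h.1 h.2
      exact ⟨y, fun _ _ => ⟨hy, hy'⟩⟩
    · exact ⟨1, fun h1 h2 => absurd ⟨h1, h2⟩ h⟩
  choose Y hY using hch
  -- the sequence of remainders
  let X : ℕ → V := fun n => Nat.rec x (fun k t => t / f (Y k t)) n
  have hX0 : X 0 = x := rfl
  have hXs : ∀ n, X (n + 1) = X n / f (Y n (X n)) := fun n => rfl
  have hinv : ∀ n, X n ∈ Vn n ∧ g (X n) = 1 := by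
    intro n
    induction n with
    | zero => exact ⟨hx, hgx⟩
    | succ k ih =>
      refine ⟨by rw [hXs]; exact (hY k (X k) ih.1 ih.2).2, ?_⟩
      rw [hXs, map_div, ih.2, hgf, div_one]
  let y : ℕ → V := fun n => Y n (X n)
  have hy : ∀ n, y n ∈ Vn n := fun n => (hY n (X n) (hinv n).1 (hinv n).2).1
  have hprod : ∀ n, x = f (∏ i ∈ Finset.range n, y i) * X n := by
    intro n
    induction n with
    | zero => simp [hX0]
    | succ k ih =>
      rw [Finset.prod_range_succ, map_mul, hXs]
      have : f (y k) = f (Y k (X k)) := rfl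
      rw [← this, mul_assoc, mul_div_cancel]
      exact ih
  obtain ⟨z, hz⟩ := hcomp y hy
  refine ⟨z, by simpa using hz 0, ?_⟩
  have hone : x / f z = 1 := by
    apply hsep
    intro n
    have h1 : x / f z = X n * (f (z / ∏ i ∈ Finset.range n, y i))⁻¹ := by
      have hp := hprod n
      generalize X n = t at hp ⊢
      generalize (∏ i ∈ Finset.range n, y i) = P at hp ⊢
      rw [hp, map_div]
      simp only [div_eq_mul_inv, mul_inv_rev, inv_inv]
      rw [mul_comm (f P) t, mul_assoc]
    rw [h1]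
    exact (Vn n).mul_mem (hinv n).1 ((Vn n).inv_mem (hf n _ (hz n)))
  exact (div_eq_one.1 hone).symm

end Approx

section Shift

variable {m : ℕ} [NeZero m] {k : Type*}

/-- A function on `ZMod m` invariant under the shift is constant. -/
theorem eq_zero_apply_of_shift_invariant (w : ZMod m → k) (hw : ∀ i, w (i - 1) = w i) (i : ZMod m) :
    w i = w 0 := by
  have key : ∀ n : ℕ, w (n : ZMod m) = w 0 := by
    intro n
    induction n with
    | zero => simp
    | succ j ih =>
      have := hw ((j : ZMod m) + 1)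
      rw [add_sub_cancel_right] at this
      rw [Nat.cast_succ, ← this, ih]
  have := key i.val
  rwa [ZMod.natCast_zmod_val] at this

variable [AddCommGroup k]

/-- Sum over `ZMod m` as a sum over `range m`. -/
theorem sum_zmod_eq_sum_range (g : ZMod m → k) :
    ∑ j : ZMod m, g j = ∑ t ∈ Finset.range m, g (t : ZMod m) := by
  obtain ⟨n, rfl⟩ : ∃ n, m = n + 1 := ⟨m - 1, (Nat.sub_add_cancel (NeZero.pos m)).symm⟩
  have h := Fin.sum_univ_eq_sum_range (fun t => g (t : ZMod (n + 1))) (n + 1)
  rw [← h]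
  refine Finset.sum_congr rfl fun i _ => ?_
  congr 1
  exact (ZMod.natCast_zmod_val (n := n + 1) i).symm

/-- **Discrete integration on `ZMod m`.**  For every `w` there is `b` (with values in any subgroup
containing the values of `w`) such that `b (i - 1) - b i = w i` for `i ≠ 0` and
`b (-1) - b 0 = w 0 - ∑ w`. -/
theorem exists_shift_primitive (K' : AddSubgroup k) (w : ZMod m → k) (hw : ∀ i, w i ∈ K') :
    ∃ b : ZMod m → k, (∀ i, b i ∈ K') ∧
      ∀ i, b (i - 1) - b i = w i - if i = 0 then ∑ j, w j else 0 := by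
  classical
  let B : ℕ → k := fun n => - ∑ t ∈ Finset.range n, w ((t : ZMod m) + 1)
  have hB : ∀ n, B n - B (n + 1) = w ((n : ZMod m) + 1) := by
    intro n
    simp only [B, Finset.sum_range_succ]
    abel
  refine ⟨fun i => B i.val, fun i => ?_, fun i => ?_⟩
  · exact K'.neg_mem (K'.sum_mem fun t _ => hw _)
  · -- write `i = n + 1` with `n < m`
    obtain ⟨n, hn, hi⟩ : ∃ n : ℕ, n < m ∧ i = (n : ZMod m) + 1 := by
      by_cases hi : i = 0
      · refine ⟨m - 1, Nat.sub_lt (NeZero.pos m) one_pos, ?_⟩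
        have : ((m - 1 : ℕ) : ZMod m) + 1 = ((m - 1 + 1 : ℕ) : ZMod m) := by push_cast; rfl
        rw [hi, this, Nat.sub_add_cancel (NeZero.pos m), ZMod.natCast_self]
      · have hpos : 0 < i.val := ZMod.val_pos.2 hi
        refine ⟨i.val - 1, lt_of_lt_of_le (Nat.sub_lt hpos one_pos) (ZMod.val_lt i).le, ?_⟩
        have : ((i.val - 1 : ℕ) : ZMod m) + 1 = ((i.val - 1 + 1 : ℕ) : ZMod m) := by push_cast; rfl
        rw [this, Nat.sub_add_cancel hpos, ZMod.natCast_zmod_val]
    have h1 : (i - 1).val = n := by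
      rw [hi, add_sub_cancel_right, ZMod.val_natCast, Nat.mod_eq_of_lt hn]
    show B (i - 1).val - B i.val = _
    rw [h1]
    by_cases h0 : i = 0
    · -- then `n = m - 1`
      rw [if_pos h0]
      have hn1 : n + 1 = m := by
        have h2 : ((n + 1 : ℕ) : ZMod m) = 0 := by push_cast; rw [← hi, h0]
        rw [ZMod.natCast_eq_zero_iff] at h2
        exact le_antisymm hn (Nat.le_of_dvd (Nat.succ_pos n) h2)
      have hv : i.val = 0 := by rw [h0, ZMod.val_zero]
      rw [hv]
      have hs : ∑ j : ZMod m, w j = ∑ t ∈ Finset.range (n + 1), w ((t : ZMod m) + 1) := by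
        rw [← Equiv.sum_comp (Equiv.addRight (1 : ZMod m)) w, sum_zmod_eq_sum_range, hn1]
        rfl
      rw [hs, Finset.sum_range_succ, ← hi, h0]
      simp only [B, Finset.range_zero, Finset.sum_empty, neg_zero]
      abel
    · rw [if_neg h0, sub_zero]
      have hv : i.val = n + 1 := by
        have hlt : n + 1 < m := by
          rcases Nat.lt_or_ge (n + 1) m with h | h
          · exact h
          · exfalso
            have : n + 1 = m := le_antisymm hn h
            apply h0
            rw [hi]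
            have h3 : ((n : ZMod m)) + 1 = ((n + 1 : ℕ) : ZMod m) := by push_cast; rfl
            rw [h3, this, ZMod.natCast_self]
        have h3 : ((n : ZMod m)) + 1 = ((n + 1 : ℕ) : ZMod m) := by push_cast; rfl
        rw [hi, h3, ZMod.val_natCast, Nat.mod_eq_of_lt hlt]
      rw [hv, hB n, ← hi]

end Shift

end Fermat.Agent.GC.Local.Herbrand
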