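/-
GATE-C / C3 (LOCAL) — glue (helper67): helper3's `InvMain.LowerData` (field-theoretic lower-bound
data, produced by helper26's `Unram/LowerData.lean`) ⟹ `LowerInput q` of `ClassMod.lean`, hence
the local class module, `|H²| = [L:K]`, and `H³(H, Lˣ) = 0` for all `H ≤ Gal(L/K)`.
-/
import Fermat.Agent.GC.Local.Herbrand.ClassMod
import Fermat.Agent.GC.Local.InvMain

set_option autoImplicit false

open scoped Padic
open CategoryTheory groupCohomology
open Fermat.Agent.GC.Tate

namespace Fermat.Agent.GC.Local.Herbrand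

/-- helper3's `LowerData` for all finite Galois extensions of `q`-adic fields
(= the statement of helper26's `lowerData`). -/
def LowerDataAll (q : ℕ) [Fact q.Prime] : Prop :=
  ∀ (K L : Type) [Field K] [Field L] [Algebra ℚ_[q] K] [Algebra ℚ_[q] L] [Algebra K L]
    [IsScalarTower ℚ_[q] K L] [FiniteDimensional ℚ_[q] L] [FiniteDimensional K L] [IsGalois K L],
    Fermat.Agent.GC.Local.InvMain.LowerData K L

variable {q : ℕ} [Fact q.Prime]

/-- `LowerData` for all pairs gives a class of exact order `[L:K]`. -/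
theorem lowerInput_of_lowerDataAll (h : LowerDataAll q) : LowerInput q := by
  intro K L _ _ _ _ _ _ _ _ _
  obtain ⟨hfin, hdvd⟩ := card_H2_dvd_finrank q K L
  obtain ⟨y, hy⟩ := Fermat.Agent.GC.Local.InvMain.exists_class_of_lowerData (h K L)
  exact ⟨y, Nat.dvd_antisymm ((addOrderOf_dvd_natCard y).trans hdvd)
    (hy _ (addOrderOf_nsmul_eq_zero y))⟩

/-- the local class module, from `LowerDataAll`. -/
noncomputable def localClassModule' (h : LowerDataAll q) (K L : Type) [Field K] [Field L]
    [Algebra ℚ_[q] K] [Algebra ℚ_[q] L] [Algebra K L] [IsScalarTower ℚ_[q] K L]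
    [FiniteDimensional ℚ_[q] L] [FiniteDimensional K L] [IsGalois K L] :
    ClassModule (L ≃ₐ[K] L) :=
  localClassModule (lowerInput_of_lowerDataAll h) K L

/-- local `H³ = 0`, from `LowerDataAll`. -/
theorem local_isZero_H3' (h : LowerDataAll q) (K L : Type) [Field K] [Field L]
    [Algebra ℚ_[q] K] [Algebra ℚ_[q] L] [Algebra K L] [IsScalarTower ℚ_[q] K L]
    [FiniteDimensional ℚ_[q] L] [FiniteDimensional K L] [IsGalois K L]
    (H : Subgroup (L ≃ₐ[K] L)) :
    Limits.IsZero (groupCohomology (resSub (Rep.ofAlgebraAutOnUnits K L) H) 3) :=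
  local_isZero_H3 (lowerInput_of_lowerDataAll h) K L H

end Fermat.Agent.GC.Local.Herbrand
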