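/-
GATE-C / C3-HERBRAND (helper67).  Finite-index invariance of the Herbrand quotient, in elementary
multiplicative `(D, N)` form (multiplicative twin of T14's `herbrand_finiteIndex`).  Mathlib only.
-/
import Mathlib

set_option autoImplicit false

namespace Fermat.Agent.GC.Local.Herbrand

/-- Lang's index lemma: `[A : A'] = [ker f : ker f ∩ A'] * [f A : f A']`. -/
theorem index_eq_relIndex_ker_mul {A B : Type*} [CommGroup A] [CommGroup B] (f : A →* B)
    (A' : Subgroup A) :
    A'.index = A'.relIndex f.ker * (A'.map f).relIndex f.range := by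
  have h1 : A'.relIndex (A' ⊔ f.ker) * (A' ⊔ f.ker).index = A'.index :=
    Subgroup.relIndex_mul_index le_sup_left
  have h2 : A'.relIndex (A' ⊔ f.ker) = A'.relIndex f.ker := Subgroup.relIndex_sup_left _ _
  have h3 : (A'.map f).relIndex f.range = (A' ⊔ f.ker).index := by
    rw [MonoidHom.range_eq_map, Subgroup.relIndex_map_map, top_sup_eq,
      Subgroup.relIndex_top_right]
  rw [h3, ← h2, h1]

/-- One half of the finite-index invariance of the Herbrand quotient. -/
theorem relIndex_half {A : Type*} [CommGroup A] (f g : A →* A) (hgf : ∀ x, g (f x) = 1)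
    (A' : Subgroup A) (hf : A'.map f ≤ A') :
    (A'.map f).relIndex f.range * f.range.relIndex g.ker =
      (A'.map f).relIndex (g.ker ⊓ A') * A'.relIndex g.ker := by
  have hfg : f.range ≤ g.ker := by
    rintro _ ⟨x, rfl⟩; exact hgf x
  have h1 : A'.map f ≤ f.range := Subgroup.map_le_range f A'
  have h2 : A'.map f ≤ g.ker ⊓ A' := le_inf (h1.trans hfg) hf
  rw [Subgroup.relIndex_mul_relIndex _ _ _ h1 hfg, ← Subgroup.inf_relIndex_left g.ker A',
    Subgroup.relIndex_mul_relIndex _ _ _ h2 inf_le_left]

/-- Finite-index invariance of the Herbrand quotient (multiplicative form). -/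
theorem herbrand_finiteIndex_mul {A : Type*} [CommGroup A] (D N : A →* A)
    (hDN : ∀ x, D (N x) = 1) (hND : ∀ x, N (D x) = 1) (A' : Subgroup A) (hA' : A'.index ≠ 0)
    (hD : A'.map D ≤ A') (hN : A'.map N ≤ A') :
    N.range.relIndex D.ker * (A'.map D).relIndex (N.ker ⊓ A') =
      (A'.map N).relIndex (D.ker ⊓ A') * D.range.relIndex N.ker := by
  have iN := index_eq_relIndex_ker_mul N A'
  have iD := index_eq_relIndex_ker_mul D A'
  have eN := relIndex_half N D hDN A' hN
  have eD := relIndex_half D N hND A' hD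
  set i := A'.index
  set kN := A'.relIndex N.ker
  set kD := A'.relIndex D.ker
  set rN := (A'.map N).relIndex N.range
  set rD := (A'.map D).relIndex D.range
  set h0 := N.range.relIndex D.ker
  set h1 := D.range.relIndex N.ker
  set h0' := (A'.map N).relIndex (D.ker ⊓ A')
  set h1' := (A'.map D).relIndex (N.ker ⊓ A')
  apply Nat.eq_of_mul_eq_mul_right (Nat.pos_of_ne_zero hA')
  calc h0 * h1' * i = (rN * h0) * (h1' * kN) := by rw [iN]; ring
    _ = (h0' * kD) * (rD * h1) := by rw [eN, eD]
    _ = h0' * h1 * i := by rw [iD]; ring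

end Fermat.Agent.GC.Local.Herbrand
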