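/-
GATE-C / C3-HERBRAND (helper67).  (H3a) The `A[G]`-free lattice `Lat` spanned by a (scaled) normal
basis inside the "ring of integers" `O` of a cyclic extension `E/F`, in abstract form.
Mathlib only.
-/
import Mathlib

set_option autoImplicit false
set_option linter.unusedSectionVars false

namespace Fermat.Agent.GC.Local.Herbrand

open Finset

variable {F E : Type*} [Field F] [Field E] [Algebra F E]

/-- The abstract hypotheses on the ring of integers `O ⊆ E` and the element `c ∈ F`
(`ϖ = algebraMap F E c` plays the role of a power of a uniformiser of `F`). -/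
structure LocalHyp (O : Subring E) (c : F) : Prop where
  c_ne : c ≠ 0
  c_mem : algebraMap F E c ∈ O
  c_inv_not_mem : (algebraMap F E c)⁻¹ ∉ O
  arch : ∀ x : E, ∃ k : ℕ, (algebraMap F E c) ^ k * x ∈ O
  stable : ∀ (σ : E ≃ₐ[F] E) (x : E), x ∈ O → σ x ∈ O
  unit : ∀ x ∈ O, 1 + algebraMap F E c * x ≠ 0 ∧ (1 + algebraMap F E c * x)⁻¹ ∈ O
  complete : ∀ f : ℕ → E, (∀ n, f n ∈ O) →
    (∀ n, ∃ y ∈ O, f (n + 1) - f n = (algebraMap F E c) ^ n * y) →
      ∃ L ∈ O, ∀ n, ∃ y ∈ O, L - f n = (algebraMap F E c) ^ n * y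

namespace LocalHyp

variable {O : Subring E} {c : F} (h : LocalHyp O c)
include h

theorem pi_ne : algebraMap F E c ≠ 0 := by
  intro h0
  exact h.c_ne ((map_eq_zero (algebraMap F E)).1 h0)

theorem pow_mem (n : ℕ) : (algebraMap F E c) ^ n ∈ O := O.pow_mem h.c_mem n

/-- separatedness: an element divisible by all powers of `ϖ` is zero. -/
theorem eq_zero_of_forall_pow (x : E) (hx : ∀ n : ℕ, ∃ y ∈ O, x = (algebraMap F E c) ^ n * y) :
    x = 0 := by
  by_contra hx0
  obtain ⟨k, hk⟩ := h.arch x⁻¹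
  obtain ⟨y, hy, hxy⟩ := hx (k + 1)
  have hp := h.pi_ne
  have hy0 : y ≠ 0 := by
    rintro rfl
    exact hx0 (by rw [hxy, mul_zero])
  apply h.c_inv_not_mem
  have : (algebraMap F E c)⁻¹ = ((algebraMap F E c) ^ k * x⁻¹) * y := by
    rw [hxy, pow_succ]
    field_simp
  rw [this]
  exact O.mul_mem hk hy

end LocalHyp

section Lattice

variable {m : ℕ} [NeZero m] (O : Subring E) (b : Module.Basis (ZMod m) F E)

/-- The lattice of elements whose `b`-coordinates are integral. -/
def Lat : AddSubgroup E where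
  carrier := {x | ∀ i, algebraMap F E (b.repr x i) ∈ O}
  zero_mem' := by
    intro i
    simp
  add_mem' := by
    intro x y hx hy i
    simp only [map_add, Finsupp.coe_add, Pi.add_apply]
    exact O.add_mem (hx i) (hy i)
  neg_mem' := by
    intro x hx i
    simp only [map_neg, Finsupp.coe_neg, Pi.neg_apply]
    exact O.neg_mem (hx i)

variable {O b}

theorem mem_Lat {x : E} : x ∈ Lat O b ↔ ∀ i, algebraMap F E (b.repr x i) ∈ O := Iff.rfl

theorem Lat_le (hbO : ∀ i, b i ∈ O) {x : E} (hx : x ∈ Lat O b) : x ∈ O := by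
  rw [← b.sum_repr x]
  refine O.sum_mem fun i _ => ?_
  rw [Algebra.smul_def]
  exact O.mul_mem (hx i) (hbO i)

/-- An `O ∩ F`-combination of the basis lies in the lattice. -/
theorem sum_smul_mem_Lat (a : ZMod m → F) (ha : ∀ i, algebraMap F E (a i) ∈ O) :
    ∑ i, a i • b i ∈ Lat O b := by
  intro i
  rw [b.repr_sum_self]
  exact ha i

theorem repr_sum_smul (a : ZMod m → F) (i : ZMod m) : b.repr (∑ j, a j • b j) i = a i := by
  rw [b.repr_sum_self]

theorem smul_mem_Lat {a : F} (ha : algebraMap F E a ∈ O) {x : E} (hx : x ∈ Lat O b) :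
    algebraMap F E a * x ∈ Lat O b := by
  intro i
  rw [← Algebra.smul_def, map_smul, Finsupp.smul_apply, smul_eq_mul, map_mul]
  exact O.mul_mem ha (hx i)

/-- Shift of coordinates under `s`. -/
theorem repr_shift (s : E ≃ₐ[F] E) (hbs : ∀ i, s (b i) = b (i + 1)) (x : E) (i : ZMod m) :
    b.repr (s x) i = b.repr x (i - 1) := by
  conv_lhs => rw [← b.sum_repr x]
  rw [map_sum]
  have h1 : ∑ j, s (b.repr x j • b j) = ∑ j, b.repr x (j - 1) • b j := by
    rw [← Equiv.sum_comp (Equiv.addRight (1 : ZMod m))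
      (fun j => b.repr x (j - 1) • b j)]
    refine Finset.sum_congr rfl fun j _ => ?_
    simp only [Equiv.coe_addRight, add_sub_cancel_right]
    rw [map_smul, hbs]
  rw [h1, b.repr_sum_self]

theorem shift_mem_Lat (s : E ≃ₐ[F] E) (hbs : ∀ i, s (b i) = b (i + 1)) {x : E}
    (hx : x ∈ Lat O b) : s x ∈ Lat O b := by
  intro i
  rw [repr_shift s hbs]
  exact hx _

/-- **Bounded denominators.**  Some power of `ϖ` multiplies `O` into the lattice. -/
theorem exists_pow_mul_mem_Lat [FiniteDimensional F E] [IsGalois F E] {c : F}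
    (h : LocalHyp O c) : ∃ c₀ : ℕ, ∀ x ∈ O, (algebraMap F E c) ^ c₀ * x ∈ Lat O b := by
  classical
  have hB := traceForm_nondegenerate F E
  set d := (Algebra.traceForm F E).dualBasis hB b with hd
  have hbd : (Algebra.traceForm F E).dualBasis hB d = b :=
    LinearMap.BilinForm.dualBasis_dualBasis hB (Algebra.traceForm_isSymm F) b
  choose k hk using fun i => h.arch (d i)
  refine ⟨Finset.univ.sup k, fun x hx i => ?_⟩
  set c₀ := Finset.univ.sup k
  have hdi : (algebraMap F E c) ^ c₀ * d i ∈ O := by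
    have hle : k i ≤ c₀ := Finset.le_sup (Finset.mem_univ i)
    have : (algebraMap F E c) ^ c₀ * d i
        = (algebraMap F E c) ^ (c₀ - k i) * ((algebraMap F E c) ^ k i * d i) := by
      rw [← mul_assoc, ← pow_add, Nat.sub_add_cancel hle]
    rw [this]
    exact O.mul_mem (h.pow_mem _) (hk i)
  have hrepr : b.repr ((algebraMap F E c) ^ c₀ * x) i
      = Algebra.trace F E (x * ((algebraMap F E c) ^ c₀ * d i)) := by
    conv_lhs => rw [← hbd]
    rw [LinearMap.BilinForm.dualBasis_repr_apply, Algebra.traceForm_apply]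
    congr 1
    ring
  rw [hrepr, trace_eq_sum_automorphisms]
  exact O.sum_mem fun σ _ => h.stable σ _ (O.mul_mem hx hdi)

end Lattice

end Fermat.Agent.GC.Local.Herbrand
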