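/-
GATE-C / C3-HERBRAND (helper67).  (H3b) The unit groups `VS j = 1 + ϖ^(c₀+1+j) Lat`, their graded
pieces and the cohomological triviality of `VS 0` (in elementary `(D, N)` form).
Mathlib only.
-/
import Mathlib
import Fermat.Agent.GC.Local.Herbrand.Approx
import Fermat.Agent.GC.Local.Herbrand.Lattice

set_option autoImplicit false
set_option linter.unusedSectionVars false

namespace Fermat.Agent.GC.Local.Herbrand

open Finset

variable {F E : Type*} [Field F] [Field E] [Algebra F E]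
variable {m : ℕ} [NeZero m] {O : Subring E} {c : F} {b : Module.Basis (ZMod m) F E}
variable {s : E ≃ₐ[F] E} {c₀ : ℕ}

/-- All the data and hypotheses of the unit-lattice argument. -/
structure Setup (O : Subring E) (c : F) (b : Module.Basis (ZMod m) F E) (s : E ≃ₐ[F] E)
    (c₀ : ℕ) : Prop where
  hyp : LocalHyp O c
  bO : ∀ i, b i ∈ O
  bs : ∀ i, s (b i) = b (i + 1)
  sm : s ^ m = 1
  hc₀ : ∀ x ∈ O, (algebraMap F E c) ^ c₀ * x ∈ Lat O b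

local notation "ϖ" => algebraMap F E c

namespace Setup

variable (S : Setup O c b s c₀)
include S

theorem pi_mul_mem_Lat {x : E} (hx : x ∈ Lat O b) : ϖ * x ∈ Lat O b :=
  smul_mem_Lat S.hyp.c_mem hx

theorem pow_mul_mem_Lat (n : ℕ) {x : E} (hx : x ∈ Lat O b) : ϖ ^ n * x ∈ Lat O b := by
  induction n with
  | zero => simpa using hx
  | succ k ih =>
    rw [pow_succ', mul_assoc]
    exact S.pi_mul_mem_Lat ih

theorem pow_mul_mem_Lat_of_mem {n : ℕ} (hn : c₀ ≤ n) {x : E} (hx : x ∈ O) :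
    ϖ ^ n * x ∈ Lat O b := by
  have : ϖ ^ n * x = ϖ ^ (n - c₀) * (ϖ ^ c₀ * x) := by
    rw [← mul_assoc, ← pow_add, Nat.sub_add_cancel hn]
  rw [this]
  exact S.pow_mul_mem_Lat _ (S.hc₀ x hx)

theorem Lat_mem {x : E} (hx : x ∈ Lat O b) : x ∈ O := Lat_le S.bO hx

theorem s_pi : s ϖ = ϖ := s.commutes c

theorem s_mem_Lat {x : E} (hx : x ∈ Lat O b) : s x ∈ Lat O b := shift_mem_Lat s S.bs hx

end Setup

/-- The carrier of the `n`-th unit group `1 + ϖ^n Lat`. -/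
def VSet (O : Subring E) (c' : F) (b : Module.Basis (ZMod m) F E) (n : ℕ) : Set Eˣ :=
  {u | ∃ μ ∈ Lat O b, (u : E) = 1 + (algebraMap F E c') ^ n * μ}

namespace Setup

variable (S : Setup O c b s c₀)
include S

theorem one_mem_VSet (n : ℕ) : (1 : Eˣ) ∈ VSet O c b n :=
  ⟨0, (Lat O b).zero_mem, by simp⟩

theorem mul_mem_VSet {n : ℕ} (hn : c₀ ≤ n) {u v : Eˣ} (hu : u ∈ VSet O c b n)
    (hv : v ∈ VSet O c b n) : u * v ∈ VSet O c b n := by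
  obtain ⟨μ, hμ, hu⟩ := hu
  obtain ⟨ν, hν, hv⟩ := hv
  refine ⟨μ + ν + ϖ ^ n * (μ * ν), ?_, ?_⟩
  · exact (Lat O b).add_mem ((Lat O b).add_mem hμ hν)
      (S.pow_mul_mem_Lat_of_mem hn (O.mul_mem (S.Lat_mem hμ) (S.Lat_mem hν)))
  · rw [Units.val_mul, hu, hv]; ring

theorem val_mem_of_VSet {n : ℕ} {u : Eˣ} (hu : u ∈ VSet O c b n) : (u : E) ∈ O := by
  obtain ⟨μ, hμ, hu⟩ := hu
  rw [hu]
  exact O.add_mem O.one_mem (O.mul_mem (S.hyp.pow_mem n) (S.Lat_mem hμ))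

theorem inv_val_mem_of_VSet {n : ℕ} (hn : 1 ≤ n) {u : Eˣ} (hu : u ∈ VSet O c b n) :
    ((u⁻¹ : Eˣ) : E) ∈ O := by
  obtain ⟨μ, hμ, hu⟩ := hu
  rw [Units.val_inv_eq_inv_val, hu]
  have : ϖ ^ n * μ = ϖ * (ϖ ^ (n - 1) * μ) := by
    rw [← mul_assoc, ← pow_succ', Nat.sub_add_cancel hn]
  rw [this]
  exact (S.hyp.unit _ (O.mul_mem (S.hyp.pow_mem _) (S.Lat_mem hμ))).2

theorem inv_mem_VSet {n : ℕ} (hn : c₀ ≤ n) (hn1 : 1 ≤ n) {u : Eˣ} (hu : u ∈ VSet O c b n) :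
    u⁻¹ ∈ VSet O c b n := by
  have hinv := S.inv_val_mem_of_VSet hn1 hu
  obtain ⟨μ, hμ, hu⟩ := hu
  refine ⟨-μ + ϖ ^ n * (μ * μ * ((u⁻¹ : Eˣ) : E)), ?_, ?_⟩
  · exact (Lat O b).add_mem ((Lat O b).neg_mem hμ)
      (S.pow_mul_mem_Lat_of_mem hn
        (O.mul_mem (O.mul_mem (S.Lat_mem hμ) (S.Lat_mem hμ)) hinv))
  · have hne : (u : E) ≠ 0 := u.ne_zero
    have h1 : ((u⁻¹ : Eˣ) : E) * (u : E) = 1 := by
      rw [← Units.val_mul, inv_mul_cancel, Units.val_one]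
    -- u⁻¹ = 1 - ϖ^n μ + ϖ^{2n} μ² u⁻¹
    set w := ((u⁻¹ : Eˣ) : E)
    have hw : w * (1 + ϖ ^ n * μ) = 1 := by rw [← hu]; exact h1
    linear_combination (1 - ϖ ^ n * μ) * hw

/-- The unit groups `VS j = 1 + ϖ^(c₀+1+j) Lat`. -/
def VS (j : ℕ) : Subgroup Eˣ where
  carrier := VSet O c b (c₀ + 1 + j)
  one_mem' := S.one_mem_VSet _
  mul_mem' := S.mul_mem_VSet (by omega)
  inv_mem' := S.inv_mem_VSet (by omega) (by omega)

theorem mem_VS {j : ℕ} {u : Eˣ} :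
    u ∈ S.VS j ↔ ∃ μ ∈ Lat O b, (u : E) = 1 + ϖ ^ (c₀ + 1 + j) * μ := Iff.rfl

theorem VS_succ_le (j : ℕ) : S.VS (j + 1) ≤ S.VS j := by
  rintro u ⟨μ, hμ, hu⟩
  refine ⟨ϖ * μ, S.pi_mul_mem_Lat hμ, ?_⟩
  rw [hu, ← add_assoc (c₀ + 1) j 1, pow_succ, mul_assoc]

theorem VS_anti {i j : ℕ} (hij : i ≤ j) : S.VS j ≤ S.VS i := by
  induction hij with
  | refl => exact le_rfl
  | step _ ih => exact (S.VS_succ_le _).trans ih

/-- `VS i` multiplies `ϖ^k Lat` into itself. -/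
theorem VS_mul_pow_Lat {i : ℕ} {u : Eˣ} (hu : u ∈ S.VS i) (k : ℕ) {x : E} (hx : x ∈ Lat O b) :
    ∃ x' ∈ Lat O b, (u : E) * (ϖ ^ k * x) = ϖ ^ k * x' := by
  obtain ⟨μ, hμ, hu⟩ := hu
  refine ⟨x + ϖ ^ (c₀ + 1 + i) * (μ * x), ?_, ?_⟩
  · exact (Lat O b).add_mem hx
      (S.pow_mul_mem_Lat_of_mem (by omega) (O.mul_mem (S.Lat_mem hμ) (S.Lat_mem hx)))
  · rw [hu]; ring

/-- Criterion for two elements of `VS j` to be congruent modulo `VS (j+1)`. -/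
theorem div_mem_VS_succ {j : ℕ} {u v : Eˣ} (hv : v ∈ S.VS j)
    (huv : ∃ x ∈ Lat O b, (u : E) - (v : E) = ϖ ^ (c₀ + 1 + (j + 1)) * x) :
    u / v ∈ S.VS (j + 1) := by
  obtain ⟨x, hx, hx'⟩ := huv
  obtain ⟨x', hx'', he⟩ := S.VS_mul_pow_Lat ((S.VS j).inv_mem hv) (c₀ + 1 + (j + 1)) hx
  refine ⟨x', hx'', ?_⟩
  rw [← he, ← hx', Units.val_div_eq_div_val, Units.val_inv_eq_inv_val]
  field_simp
  ring

end Setup

end Fermat.Agent.GC.Local.Herbrand
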