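/-
GATE-C / C3-HERBRAND (helper67).  (H3c) The graded map `lam j : VS j → (ZMod m → F ⧸ cA)` with
kernel `VS (j+1)`, its equivariance, and the operators `Dm`, `Nm` on `Eˣ`.
Mathlib only.
-/
import Mathlib
import Fermat.Agent.GC.Local.Herbrand.Units

set_option autoImplicit false
set_option linter.unusedSectionVars false

namespace Fermat.Agent.GC.Local.Herbrand

open Finset

variable {F E : Type*} [Field F] [Field E] [Algebra F E]
variable {m : ℕ} [NeZero m] {O : Subring E} {c : F} {b : Module.Basis (ZMod m) F E}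
variable {s : E ≃ₐ[F] E} {c₀ : ℕ}

/-- `A = O ∩ F` as an additive subgroup of `F`. -/
def AF (O : Subring E) : AddSubgroup F := (O.comap (algebraMap F E)).toAddSubgroup

theorem mem_AF {a : F} : a ∈ AF (F := F) O ↔ algebraMap F E a ∈ O := Iff.rfl

/-- The subgroup `c • A` of `F`. -/
def cA (O : Subring E) (c' : F) : AddSubgroup F := (AF (F := F) O).map (AddMonoidHom.mulLeft c')

theorem mem_cA {c' x : F} : x ∈ cA O c' ↔ ∃ a, algebraMap F E a ∈ O ∧ c' * a = x := by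
  simp only [cA, AddSubgroup.mem_map, AddMonoidHom.coe_mulLeft]
  constructor
  · rintro ⟨a, ha, rfl⟩; exact ⟨a, ha, rfl⟩
  · rintro ⟨a, ha, rfl⟩; exact ⟨a, ha, rfl⟩

/-- Graded coordinates. -/
noncomputable def rho (O : Subring E) (c' : F) (b : Module.Basis (ZMod m) F E) :
    E →+ (ZMod m → F ⧸ cA O c') where
  toFun x i := QuotientAddGroup.mk (b.repr x i)
  map_zero' := by
    funext i
    simp
  map_add' x y := by
    funext i
    simp

theorem rho_apply (x : E) (i : ZMod m) :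
    rho O c b x i = QuotientAddGroup.mk (b.repr x i) := rfl

theorem rho_shift (hbs : ∀ i, s (b i) = b (i + 1)) (x : E) (i : ZMod m) :
    rho O c b (s x) i = rho O c b x (i - 1) := by
  rw [rho_apply, rho_apply, repr_shift s hbs]

theorem rho_eq_zero_iff (x : E) :
    rho O c b x = 0 ↔ ∃ μ ∈ Lat O b, x = algebraMap F E c * μ := by
  constructor
  · intro h
    have h1 : ∀ i, b.repr x i ∈ cA O c := by
      intro i
      have := congrFun h i
      rw [rho_apply] at this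
      exact (QuotientAddGroup.eq_zero_iff _).1 this
    choose a ha ha' using fun i => mem_cA.1 (h1 i)
    refine ⟨∑ i, a i • b i, sum_smul_mem_Lat a ha, ?_⟩
    rw [← Algebra.smul_def, Finset.smul_sum]
    conv_lhs => rw [← b.sum_repr x]
    refine Finset.sum_congr rfl fun i _ => ?_
    rw [smul_smul, ha']
  · rintro ⟨μ, hμ, rfl⟩
    funext i
    rw [rho_apply, ← Algebra.smul_def, map_smul, Finsupp.smul_apply, smul_eq_mul]
    exact (QuotientAddGroup.eq_zero_iff _).2 (mem_cA.2 ⟨_, hμ i, rfl⟩)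

/-- `s` on units. -/
def sU (s : E ≃ₐ[F] E) : Eˣ →* Eˣ := Units.map (s : E →* E)

@[simp] theorem coe_sU (u : Eˣ) : ((sU s u : Eˣ) : E) = s (u : E) := rfl

/-- The operator `D = s - 1` on units. -/
def Dm (s : E ≃ₐ[F] E) : Eˣ →* Eˣ where
  toFun u := sU s u / u
  map_one' := by simp
  map_mul' u v := by rw [map_mul]; exact mul_div_mul_comm _ _ _ _

theorem Dm_apply (u : Eˣ) : Dm s u = sU s u / u := rfl

/-- The operator `N = 1 + s + ... + s^(m-1)` on units. -/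
def Nm (m : ℕ) (s : E ≃ₐ[F] E) : Eˣ →* Eˣ where
  toFun u := ∏ t ∈ Finset.range m, sU (s ^ t) u
  map_one' := by simp
  map_mul' u v := by simp only [map_mul]; exact Finset.prod_mul_distrib

theorem Nm_apply (u : Eˣ) : Nm m s u = ∏ t ∈ Finset.range m, sU (s ^ t) u := rfl

theorem sU_sU_pow (t : ℕ) (u : Eˣ) : sU s (sU (s ^ t) u) = sU (s ^ (t + 1)) u := by
  ext
  simp only [coe_sU, pow_succ']
  rfl

theorem sU_pow_zero (u : Eˣ) : sU (s ^ 0) u = u := by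
  ext
  simp

theorem Dm_Nm (hsm : s ^ m = 1) (u : Eˣ) : Dm s (Nm m s u) = 1 := by
  rw [Dm_apply, div_eq_one, Nm_apply, map_prod]
  have h1 := Finset.prod_range_succ' (fun t => sU (s ^ t) u) m
  have h2 := Finset.prod_range_succ (fun t => sU (s ^ t) u) m
  have h3 : sU (s ^ m) u = sU (s ^ 0) u := by rw [hsm, pow_zero]
  rw [h1, h3] at h2
  have h4 := mul_right_cancel h2
  rw [← h4]
  exact Finset.prod_congr rfl fun t _ => sU_sU_pow t u

theorem Nm_Dm (hsm : s ^ m = 1) (u : Eˣ) : Nm m s (Dm s u) = 1 := by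
  rw [Nm_apply]
  have h : ∀ t ∈ Finset.range m, sU (s ^ t) (Dm s u) = sU (s ^ (t + 1)) u / sU (s ^ t) u := by
    intro t _
    rw [Dm_apply, map_div]
    congr 1
  rw [Finset.prod_congr rfl h, Finset.prod_range_div (fun t => sU (s ^ t) u), hsm, pow_zero,
    div_self']

local notation "ϖ" => algebraMap F E c

/-- The graded map. -/
noncomputable def Setup.lam (_S : Setup O c b s c₀) (j : ℕ) (u : Eˣ) : ZMod m → F ⧸ cA O c :=
  rho O c b (((u : E) - 1) / ϖ ^ (c₀ + 1 + j))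

namespace Setup

variable (S : Setup O c b s c₀)
include S

theorem lam_of_eq {j : ℕ} {u : Eˣ} {μ : E} (hu : (u : E) = 1 + ϖ ^ (c₀ + 1 + j) * μ) :
    S.lam j u = rho O c b μ := by
  have hp : ϖ ^ (c₀ + 1 + j) ≠ 0 := pow_ne_zero _ S.hyp.pi_ne
  rw [lam, hu, add_sub_cancel_left, mul_div_cancel_left₀ _ hp]

theorem lam_one (j : ℕ) : S.lam j 1 = 0 := by
  rw [S.lam_of_eq (μ := 0) (by simp), map_zero]

theorem lam_mul {j : ℕ} {u v : Eˣ} (hu : u ∈ S.VS j) (hv : v ∈ S.VS j) :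
    S.lam j (u * v) = S.lam j u + S.lam j v := by
  obtain ⟨μ, hμ, hu⟩ := hu
  obtain ⟨ν, hν, hv⟩ := hv
  have huv : ((u * v : Eˣ) : E) = 1 + ϖ ^ (c₀ + 1 + j) * (μ + ν + ϖ ^ (c₀ + 1 + j) * (μ * ν)) := by
    rw [Units.val_mul, hu, hv]; ring
  rw [S.lam_of_eq huv, S.lam_of_eq hu, S.lam_of_eq hv, map_add, map_add, add_eq_left]
  rw [rho_eq_zero_iff]
  refine ⟨ϖ ^ (c₀ + j) * (μ * ν),
    S.pow_mul_mem_Lat_of_mem (by omega) (O.mul_mem (S.Lat_mem hμ) (S.Lat_mem hν)), ?_⟩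
  rw [show c₀ + 1 + j = (c₀ + j) + 1 by omega, pow_succ']
  ring

theorem lam_inv {j : ℕ} {u : Eˣ} (hu : u ∈ S.VS j) : S.lam j u⁻¹ = - S.lam j u := by
  have h := S.lam_mul hu ((S.VS j).inv_mem hu)
  rw [mul_inv_cancel, S.lam_one] at h
  exact (neg_eq_of_add_eq_zero_right h.symm).symm

theorem lam_div {j : ℕ} {u v : Eˣ} (hu : u ∈ S.VS j) (hv : v ∈ S.VS j) :
    S.lam j (u / v) = S.lam j u - S.lam j v := by
  rw [div_eq_mul_inv, S.lam_mul hu ((S.VS j).inv_mem hv), S.lam_inv hv, sub_eq_add_neg]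

theorem lam_eq_zero_iff {j : ℕ} {u : Eˣ} (hu : u ∈ S.VS j) :
    S.lam j u = 0 ↔ u ∈ S.VS (j + 1) := by
  obtain ⟨μ, hμ, hu⟩ := hu
  rw [S.lam_of_eq hu, rho_eq_zero_iff]
  constructor
  · rintro ⟨ν, hν, rfl⟩
    refine ⟨ν, hν, ?_⟩
    rw [hu, ← add_assoc (c₀ + 1) j 1, pow_succ, mul_assoc]
  · rintro ⟨ν, hν, hu'⟩
    refine ⟨ν, hν, ?_⟩
    have hp : ϖ ^ (c₀ + 1 + j) ≠ 0 := pow_ne_zero _ S.hyp.pi_ne
    rw [hu, ← add_assoc (c₀ + 1) j 1, pow_succ, mul_assoc] at hu'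
    exact mul_left_cancel₀ hp (add_left_cancel hu')

theorem lam_prod {j : ℕ} (y : ℕ → Eˣ) (k : ℕ) (hy : ∀ t < k, y t ∈ S.VS j) :
    S.lam j (∏ t ∈ Finset.range k, y t) = ∑ t ∈ Finset.range k, S.lam j (y t) := by
  induction k with
  | zero => simp [S.lam_one]
  | succ k ih =>
    rw [Finset.prod_range_succ, Finset.sum_range_succ,
      S.lam_mul ((S.VS j).prod_mem fun t ht => hy t (by
        have := Finset.mem_range.1 ht; omega)) (hy k (by omega)),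
      ih fun t ht => hy t (by omega)]

theorem sU_pow_mem {j : ℕ} {u : Eˣ} (hu : u ∈ S.VS j) (t : ℕ) :
    sU (s ^ t) u ∈ S.VS j ∧ ∀ i, S.lam j (sU (s ^ t) u) i = S.lam j u (i - t) := by
  induction t with
  | zero =>
    rw [sU_pow_zero]
    exact ⟨hu, fun i => by simp⟩
  | succ t ih =>
    obtain ⟨⟨μ, hμ, hμ'⟩, h2⟩ := ih
    have hnew : ((sU (s ^ (t + 1)) u : Eˣ) : E) = 1 + ϖ ^ (c₀ + 1 + j) * s μ := by
      rw [← sU_sU_pow, coe_sU, hμ', map_add, map_one, map_mul, map_pow, S.s_pi]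
    refine ⟨⟨s μ, S.s_mem_Lat hμ, hnew⟩, fun i => ?_⟩
    rw [S.lam_of_eq hnew, rho_shift S.bs, ← S.lam_of_eq hμ', h2]
    congr 1
    push_cast
    ring

theorem sU_mem {j : ℕ} {u : Eˣ} (hu : u ∈ S.VS j) :
    sU s u ∈ S.VS j ∧ ∀ i, S.lam j (sU s u) i = S.lam j u (i - 1) := by
  have := S.sU_pow_mem hu 1
  simpa using this

theorem Dm_mem {j : ℕ} {u : Eˣ} (hu : u ∈ S.VS j) : Dm s u ∈ S.VS j :=
  (S.VS j).div_mem (S.sU_mem hu).1 hu

theorem Nm_mem {j : ℕ} {u : Eˣ} (hu : u ∈ S.VS j) : Nm m s u ∈ S.VS j :=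
  (S.VS j).prod_mem fun t _ => (S.sU_pow_mem hu t).1

theorem lam_Dm {j : ℕ} {u : Eˣ} (hu : u ∈ S.VS j) (i : ZMod m) :
    S.lam j (Dm s u) i = S.lam j u (i - 1) - S.lam j u i := by
  rw [Dm_apply, S.lam_div (S.sU_mem hu).1 hu, Pi.sub_apply, (S.sU_mem hu).2]

theorem lam_Nm {j : ℕ} {u : Eˣ} (hu : u ∈ S.VS j) (i : ZMod m) :
    S.lam j (Nm m s u) i = ∑ k, S.lam j u k := by
  rw [Nm_apply, S.lam_prod _ _ fun t _ => (S.sU_pow_mem hu t).1, Finset.sum_apply]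
  rw [Finset.sum_congr rfl fun t _ => (S.sU_pow_mem hu t).2 i]
  rw [← sum_zmod_eq_sum_range (fun k : ZMod m => S.lam j u (i - k))]
  exact Equiv.sum_comp (Equiv.subLeft i) (S.lam j u)

/-- Lifting integral coordinates to `VS j`. -/
theorem lam_lift (j : ℕ) (a : ZMod m → F) (ha : ∀ i, algebraMap F E (a i) ∈ O) :
    ∃ u ∈ S.VS j, ∀ i, S.lam j u i = QuotientAddGroup.mk (a i) := by
  have hμ : ∑ i, a i • b i ∈ Lat O b := sum_smul_mem_Lat a ha
  have hne : 1 + ϖ ^ (c₀ + 1 + j) * ∑ i, a i • b i ≠ 0 := by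
    have : ϖ ^ (c₀ + 1 + j) * ∑ i, a i • b i = ϖ * (ϖ ^ (c₀ + j) * ∑ i, a i • b i) := by
      rw [← mul_assoc, ← pow_succ', show c₀ + j + 1 = c₀ + 1 + j by omega]
    rw [this]
    exact (S.hyp.unit _ (O.mul_mem (S.hyp.pow_mem _) (S.Lat_mem hμ))).1
  refine ⟨Units.mk0 _ hne, ⟨_, hμ, rfl⟩, fun i => ?_⟩
  rw [S.lam_of_eq (u := Units.mk0 _ hne) (μ := ∑ i, a i • b i) rfl, rho_apply, repr_sum_smul]

end Setup

end Fermat.Agent.GC.Local.Herbrand
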