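/-
GATE-C / C3-HERBRAND (helper67).  (H3d) Cohomological triviality of `VS 0` in elementary `(D, N)`
form: `ker N ∩ VS 0 = D (VS 0)` and `ker D ∩ VS 0 = N (VS 0)`.
Mathlib only.
-/
import Mathlib
import Fermat.Agent.GC.Local.Herbrand.Graded

set_option autoImplicit false
set_option linter.unusedSectionVars false

namespace Fermat.Agent.GC.Local.Herbrand

open Finset

variable {F E : Type*} [Field F] [Field E] [Algebra F E]
variable {m : ℕ} [NeZero m] {O : Subring E} {c : F} {b : Module.Basis (ZMod m) F E}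
variable {s : E ≃ₐ[F] E} {c₀ : ℕ}

local notation "ϖ" => algebraMap F E c

namespace Setup

variable (S : Setup O c b s c₀)
include S

/-- Separatedness of the filtration `VS`. -/
theorem VS_separated (u : Eˣ) (hu : ∀ j, u ∈ S.VS j) : u = 1 := by
  have h0 : (u : E) - 1 = 0 := by
    apply S.hyp.eq_zero_of_forall_pow
    intro n
    obtain ⟨μ, hμ, hμ'⟩ := hu n
    refine ⟨ϖ ^ (c₀ + 1) * μ, O.mul_mem (S.hyp.pow_mem _) (S.Lat_mem hμ), ?_⟩
    rw [hμ', add_sub_cancel_left, ← mul_assoc, ← pow_add, add_comm n]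
  ext
  rw [Units.val_one]
  exact sub_eq_zero.1 h0

/-- Graded exactness, `N`-version. -/
theorem graded_N {j : ℕ} {x : Eˣ} (hx : x ∈ S.VS j) (hN : Nm m s x = 1) :
    ∃ y ∈ S.VS j, x / Dm s y ∈ S.VS (j + 1) := by
  classical
  have hsum : ∑ k, S.lam j x k = 0 := by
    have := S.lam_Nm hx 0
    rw [hN, S.lam_one] at this
    exact this.symm
  obtain ⟨μ, hμ, hμ'⟩ := hx
  have hx : x ∈ S.VS j := ⟨μ, hμ, hμ'⟩
  have hlam : ∀ i, S.lam j x i = QuotientAddGroup.mk (b.repr μ i) := by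
    intro i
    rw [S.lam_of_eq hμ', rho_apply]
  obtain ⟨b', hb', hb''⟩ := exists_shift_primitive (AF (F := F) O) (fun i => b.repr μ i)
    (fun i => hμ i)
  obtain ⟨y, hy, hylam⟩ := S.lam_lift j b' hb'
  refine ⟨y, hy, ?_⟩
  rw [← S.lam_eq_zero_iff ((S.VS j).div_mem hx (S.Dm_mem hy)), S.lam_div hx (S.Dm_mem hy),
    sub_eq_zero]
  funext i
  rw [S.lam_Dm hy, hylam, hylam, hlam, ← QuotientAddGroup.mk_sub, hb'' i]
  by_cases hi : i = 0
  · rw [if_pos hi, QuotientAddGroup.mk_sub]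
    have : (QuotientAddGroup.mk (∑ k, b.repr μ k) : F ⧸ cA O c) = 0 := by
      rw [← hsum]
      simp only [hlam]
      exact map_sum (QuotientAddGroup.mk' (cA O c)) _ _
    rw [this, sub_zero]
  · rw [if_neg hi, sub_zero]

/-- Graded exactness, `D`-version. -/
theorem graded_D {j : ℕ} {x : Eˣ} (hx : x ∈ S.VS j) (hD : Dm s x = 1) :
    ∃ y ∈ S.VS j, x / Nm m s y ∈ S.VS (j + 1) := by
  classical
  have hconst : ∀ i, S.lam j x i = S.lam j x 0 := by
    apply eq_zero_apply_of_shift_invariant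
    intro i
    have := S.lam_Dm hx i
    rw [hD, S.lam_one, Pi.zero_apply] at this
    exact (sub_eq_zero.1 this.symm)
  obtain ⟨μ, hμ, hμ'⟩ := hx
  have hx : x ∈ S.VS j := ⟨μ, hμ, hμ'⟩
  have hlam : ∀ i, S.lam j x i = QuotientAddGroup.mk (b.repr μ i) := by
    intro i
    rw [S.lam_of_eq hμ', rho_apply]
  obtain ⟨y, hy, hylam⟩ := S.lam_lift j (fun i => if i = 0 then b.repr μ 0 else 0)
    (fun i => by
      by_cases hi : i = 0
      · rw [if_pos hi]; exact hμ 0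
      · rw [if_neg hi, map_zero]; exact O.zero_mem)
  refine ⟨y, hy, ?_⟩
  rw [← S.lam_eq_zero_iff ((S.VS j).div_mem hx (S.Nm_mem hy)), S.lam_div hx (S.Nm_mem hy),
    sub_eq_zero]
  funext i
  rw [S.lam_Nm hy, hconst i, hlam 0]
  simp only [hylam]
  rw [Finset.sum_eq_single 0]
  · rw [if_pos rfl]
  · intro k _ hk
    rw [if_neg hk]
    rfl
  · intro h
    exact absurd (Finset.mem_univ _) h

/-- Completeness of the filtration `VS`. -/
theorem VS_complete (y : ℕ → Eˣ) (hy : ∀ j, y j ∈ S.VS j) :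
    ∃ z : Eˣ, ∀ j, z / ∏ i ∈ Finset.range j, y i ∈ S.VS j := by
  classical
  -- partial products
  set P : ℕ → Eˣ := fun j => ∏ i ∈ Finset.range j, y i with hP
  have hP0 : ∀ j, P j ∈ S.VS 0 := fun j =>
    (S.VS 0).prod_mem fun i _ => S.VS_anti (Nat.zero_le i) (hy i)
  -- tail products
  have htail : ∀ j k, j ≤ k → P k / P j ∈ S.VS j := by
    intro j k hjk
    induction hjk with
    | refl => rw [div_self']; exact (S.VS j).one_mem
    | @step k hjk ih =>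
      have : P (k + 1) / P j = (P k / P j) * y k := by
        simp only [hP, Finset.prod_range_succ]
        rw [div_mul_eq_mul_div]
      rw [this]
      exact (S.VS j).mul_mem ih (S.VS_anti hjk (hy k))
  -- the sequence `(P j - 1) / ϖ^(c₀+1)` in `O`
  choose μ hμ hμ' using fun j => hP0 j
  have hμO : ∀ j, μ j ∈ O := fun j => S.Lat_mem (hμ j)
  have hp : ϖ ^ (c₀ + 1 + 0) ≠ 0 := pow_ne_zero _ S.hyp.pi_ne
  have hcauchy : ∀ j, ∃ t ∈ O, μ (j + 1) - μ j = ϖ ^ j * t := by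
    intro j
    obtain ⟨ν, hν, hν'⟩ := hy j
    refine ⟨((P j : Eˣ) : E) * ν, O.mul_mem (S.val_mem_of_VSet (hP0 j)) (S.Lat_mem hν), ?_⟩
    have h1 : ((P (j + 1) : Eˣ) : E) = (P j : E) * (y j : E) := by
      simp only [hP, Finset.prod_range_succ, Units.val_mul]
    have h2 := hμ' (j + 1)
    have h3 := hμ' j
    rw [h1, h3, hν'] at h2
    apply mul_left_cancel₀ hp
    have h4 : ϖ ^ (c₀ + 1 + j) = ϖ ^ (c₀ + 1 + 0) * ϖ ^ j := by
      rw [← pow_add]
    rw [h3]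
    rw [h4] at h2
    linear_combination (-1 : E) * h2
  obtain ⟨L, hL, hL'⟩ := S.hyp.complete μ hμO hcauchy
  -- the limit unit
  have hzne : 1 + ϖ ^ (c₀ + 1 + 0) * L ≠ 0 := by
    have : ϖ ^ (c₀ + 1 + 0) * L = ϖ * (ϖ ^ c₀ * L) := by
      rw [← mul_assoc, ← pow_succ']
    rw [this]
    exact (S.hyp.unit _ (O.mul_mem (S.hyp.pow_mem _) hL)).1
  refine ⟨Units.mk0 _ hzne, fun j => ?_⟩
  set z : Eˣ := Units.mk0 _ hzne with hz
  -- choose `k = j + c₀`
  set k := j + c₀ with hk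
  have hzk : z / P k ∈ S.VS j := by
    obtain ⟨t, ht, ht'⟩ := hL' k
    -- z - P k = ϖ^(c₀+1) (L - μ k) = ϖ^(c₀+1+j) (ϖ^c₀ t)
    have hdiff : (z : E) - (P k : E) = ϖ ^ (c₀ + 1 + j) * (ϖ ^ c₀ * t) := by
      rw [hz, Units.val_mk0, hμ' k]
      have : ϖ ^ (c₀ + 1 + j) * (ϖ ^ c₀ * t) = ϖ ^ (c₀ + 1 + 0) * (ϖ ^ k * t) := by
        rw [← mul_assoc, ← mul_assoc, ← pow_add, ← pow_add, hk]
        congr 2
        omega
      rw [this, ← ht']
      ring
    obtain ⟨x', hx', he⟩ := S.VS_mul_pow_Lat ((S.VS 0).inv_mem (hP0 k)) (c₀ + 1 + j)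
      (S.hc₀ t ht)
    refine ⟨x', hx', ?_⟩
    rw [← he, ← hdiff, Units.val_div_eq_div_val, Units.val_inv_eq_inv_val]
    have hne : ((P k : Eˣ) : E) ≠ 0 := (P k).ne_zero
    field_simp
    ring
  have : z / P j = (z / P k) * (P k / P j) := by
    rw [div_mul_div_cancel]
  rw [this]
  exact (S.VS j).mul_mem hzk (htail j k (by omega))

/-- **Cohomological triviality of `VS 0`, `N`-version**: `ker N ∩ VS 0 ⊆ D (VS 0)`. -/
theorem exists_Dm_eq {x : Eˣ} (hx : x ∈ S.VS 0) (hN : Nm m s x = 1) :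
    ∃ y ∈ S.VS 0, Dm s y = x :=
  exists_preimage_of_graded S.VS (Dm s) (Nm m s) (fun _ _ hx => S.Dm_mem hx)
    (Nm_Dm S.sm) S.VS_separated S.VS_complete (fun _ _ hx hN => S.graded_N hx hN) x hx hN

/-- **Cohomological triviality of `VS 0`, `D`-version**: `ker D ∩ VS 0 ⊆ N (VS 0)`. -/
theorem exists_Nm_eq {x : Eˣ} (hx : x ∈ S.VS 0) (hD : Dm s x = 1) :
    ∃ y ∈ S.VS 0, Nm m s y = x :=
  exists_preimage_of_graded S.VS (Nm m s) (Dm s) (fun _ _ hx => S.Nm_mem hx)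
    (Dm_Nm S.sm) S.VS_separated S.VS_complete (fun _ _ hx hD => S.graded_D hx hD) x hx hD

end Setup

end Fermat.Agent.GC.Local.Herbrand
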