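/-
GATE-C / C3-HERBRAND (helper67).  (H4) The Herbrand-quotient computation: in the abstract setup,
`[ker D : im N] = m` on `Eˣ`.
Mathlib only.
-/
import Mathlib
import Fermat.Agent.GC.Local.Herbrand.HerbMul
import Fermat.Agent.GC.Local.Herbrand.Triv

set_option autoImplicit false
set_option linter.unusedSectionVars false

namespace Fermat.Agent.GC.Local.Herbrand

open Finset

/-- Index of `H` in `H ⊔ ⟨g⟩` when `g ^ k ∈ H ↔ n ∣ k`. -/
theorem relIndex_sup_zpowers {G : Type*} [CommGroup G] (H : Subgroup G) (g : G) (n : ℕ)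
    (h : ∀ k : ℤ, g ^ k ∈ H ↔ (n : ℤ) ∣ k) : H.relIndex (H ⊔ Subgroup.zpowers g) = n := by
  rw [Subgroup.relIndex_sup_left, ← Subgroup.range_zpowersHom, ← Subgroup.index_comap]
  have : H.comap (zpowersHom G g) = (AddSubgroup.zmultiples (n : ℤ)).toSubgroup := by
    ext k
    rw [Subgroup.mem_comap, zpowersHom_apply, h]
    change _ ↔ Multiplicative.toAdd k ∈ AddSubgroup.zmultiples (n : ℤ)
    rw [Int.mem_zmultiples_iff]
  rw [this, AddSubgroup.index_toSubgroup, Int.index_zmultiples, Int.natAbs_natCast]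

variable {F E : Type*} [Field F] [Field E] [Algebra F E]
variable {m : ℕ} [NeZero m] {O : Subring E} {c : F} {b : Module.Basis (ZMod m) F E}
variable {s : E ≃ₐ[F] E} {c₀ : ℕ}

local notation "ϖ" => algebraMap F E c

/-- `ϖ` as a unit of `E`. -/
def Setup.piU (S : Setup O c b s c₀) : Eˣ := Units.mk0 ϖ S.hyp.pi_ne

namespace Setup

variable (S : Setup O c b s c₀)
include S

@[simp] theorem coe_piU : ((S.piU : Eˣ) : E) = ϖ := rfl

theorem sU_pow_piU (t : ℕ) : sU (s ^ t) S.piU = S.piU := by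
  ext
  rw [coe_sU, coe_piU]
  exact (s ^ t).commutes c

theorem Dm_piU_zpow (k : ℤ) : Dm s (S.piU ^ k) = 1 := by
  rw [map_zpow, Dm_apply]
  have : sU s S.piU = S.piU := by simpa using S.sU_pow_piU 1
  rw [this, div_self', one_zpow]

theorem Nm_piU_zpow (k : ℤ) : Nm m s (S.piU ^ k) = S.piU ^ ((m : ℤ) * k) := by
  rw [map_zpow, Nm_apply, Finset.prod_congr rfl fun t _ => S.sU_pow_piU t, Finset.prod_const,
    Finset.card_range, zpow_mul, zpow_natCast]

theorem inv_pi_not_mem_of_pow {n : ℕ} (h : ((ϖ) ^ (n + 1))⁻¹ ∈ O) : False := by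
  apply S.hyp.c_inv_not_mem
  have hp := S.hyp.pi_ne
  have : (ϖ)⁻¹ = ϖ ^ n * ((ϖ) ^ (n + 1))⁻¹ := by
    rw [pow_succ]
    field_simp
  rw [this]
  exact O.mul_mem (S.hyp.pow_mem n) h

theorem eq_zero_of_piU_zpow_mem {k : ℤ} (h : S.piU ^ k ∈ S.VS 0) : k = 0 := by
  have h1 := S.val_mem_of_VSet h
  have h2 := S.inv_val_mem_of_VSet (n := c₀ + 1 + 0) (by omega) h
  obtain ⟨n, rfl | rfl⟩ := Int.eq_nat_or_neg k
  · rcases n with _ | n
    · rfl
    · exfalso
      apply S.inv_pi_not_mem_of_pow (n := n)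
      rw [Units.val_inv_eq_inv_val, zpow_natCast, Units.val_pow_eq_pow_val, coe_piU] at h2
      exact h2
  · rcases n with _ | n
    · simp
    · exfalso
      apply S.inv_pi_not_mem_of_pow (n := n)
      rw [zpow_neg, zpow_natCast, Units.val_inv_eq_inv_val, Units.val_pow_eq_pow_val,
        coe_piU] at h1
      exact h1

/-- **The Herbrand computation**: `[ker D : im N] = m` on `Eˣ`. -/
theorem norm_relIndex (hH90 : ∀ x : Eˣ, Nm m s x = 1 → ∃ y, Dm s y = x)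
    (hfin : (S.VS 0 ⊔ Subgroup.zpowers S.piU).index ≠ 0) :
    (Nm m s).range.relIndex (Dm s).ker = m := by
  set A' := S.VS 0 ⊔ Subgroup.zpowers S.piU with hA'
  have hVle : S.VS 0 ≤ A' := le_sup_left
  have hpile : ∀ k : ℤ, S.piU ^ k ∈ A' := fun k =>
    (le_sup_right : Subgroup.zpowers S.piU ≤ A') (Subgroup.zpow_mem_zpowers _ k)
  -- elements of A'
  have hmem : ∀ x ∈ A', ∃ v ∈ S.VS 0, ∃ k : ℤ, v * S.piU ^ k = x := by
    intro x hx
    obtain ⟨v, hv, z, hz, rfl⟩ := Subgroup.mem_sup.1 hx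
    obtain ⟨k, rfl⟩ := Subgroup.mem_zpowers_iff.1 hz
    exact ⟨v, hv, k, rfl⟩
  have hDx : ∀ v (k : ℤ), Dm s (v * S.piU ^ k) = Dm s v := by
    intro v k
    rw [map_mul, S.Dm_piU_zpow, mul_one]
  have hNx : ∀ v (k : ℤ), Nm m s (v * S.piU ^ k) = Nm m s v * S.piU ^ ((m : ℤ) * k) := by
    intro v k
    rw [map_mul, S.Nm_piU_zpow]
  have hD : A'.map (Dm s) ≤ A' := by
    rintro _ ⟨x, hx, rfl⟩
    obtain ⟨v, hv, k, rfl⟩ := hmem x hx
    rw [hDx]
    exact hVle (S.Dm_mem hv)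
  have hN : A'.map (Nm m s) ≤ A' := by
    rintro _ ⟨x, hx, rfl⟩
    obtain ⟨v, hv, k, rfl⟩ := hmem x hx
    rw [hNx]
    exact A'.mul_mem (hVle (S.Nm_mem hv)) (hpile _)
  have key := herbrand_finiteIndex_mul (Dm s) (Nm m s) (Dm_Nm S.sm) (Nm_Dm S.sm) A' hfin hD hN
  have hm0 : (m : ℤ) ≠ 0 := Int.natCast_ne_zero.2 (NeZero.ne m)
  -- h1 = 1
  have h1 : (Dm s).range.relIndex (Nm m s).ker = 1 := by
    rw [Subgroup.relIndex_eq_one]
    intro x hx
    exact hH90 x hx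
  -- h1' = 1
  have h1' : (A'.map (Dm s)).relIndex ((Nm m s).ker ⊓ A') = 1 := by
    rw [Subgroup.relIndex_eq_one]
    rintro x ⟨hxN, hxA⟩
    obtain ⟨v, hv, k, rfl⟩ := hmem x hxA
    have hNv : Nm m s v * S.piU ^ ((m : ℤ) * k) = 1 := by
      rw [← hNx]; exact hxN
    have hk : S.piU ^ ((m : ℤ) * k) ∈ S.VS 0 := by
      have : S.piU ^ ((m : ℤ) * k) = (Nm m s v)⁻¹ := eq_inv_of_mul_eq_one_right hNv
      rw [this]
      exact (S.VS 0).inv_mem (S.Nm_mem hv)
    have hk0 : k = 0 := by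
      rcases mul_eq_zero.1 (S.eq_zero_of_piU_zpow_mem hk) with h | h
      · exact absurd h hm0
      · exact h
    subst hk0
    rw [zpow_zero, mul_one] at hxN ⊢
    obtain ⟨y, hy, rfl⟩ := S.exists_Dm_eq hv hxN
    exact ⟨y, hVle hy, rfl⟩
  -- h0' = m
  have h0' : (A'.map (Nm m s)).relIndex ((Dm s).ker ⊓ A') = m := by
    have hset : (Dm s).ker ⊓ A' = A'.map (Nm m s) ⊔ Subgroup.zpowers S.piU := by
      apply le_antisymm
      · rintro x ⟨hxD, hxA⟩
        obtain ⟨v, hv, k, rfl⟩ := hmem x hxA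
        have hDv : Dm s v = 1 := by rw [← hDx v k]; exact hxD
        obtain ⟨y, hy, rfl⟩ := S.exists_Nm_eq hv hDv
        exact Subgroup.mul_mem_sup ⟨y, hVle hy, rfl⟩ (Subgroup.zpow_mem_zpowers _ k)
      · apply sup_le
        · rintro _ ⟨x, hx, rfl⟩
          exact ⟨Dm_Nm S.sm x, hN ⟨x, hx, rfl⟩⟩
        · rw [Subgroup.zpowers_le]
          refine ⟨?_, by simpa using hpile 1⟩
          simpa using S.Dm_piU_zpow 1
    rw [hset]
    apply relIndex_sup_zpowers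
    intro k
    constructor
    · rintro ⟨x, hx, hxk⟩
      obtain ⟨v, hv, j, rfl⟩ := hmem x hx
      rw [hNx] at hxk
      have hk : S.piU ^ (k - (m : ℤ) * j) ∈ S.VS 0 := by
        have : S.piU ^ (k - (m : ℤ) * j) = Nm m s v := by
          rw [zpow_sub, ← hxk, mul_inv_cancel_right]
        rw [this]
        exact S.Nm_mem hv
      have := S.eq_zero_of_piU_zpow_mem hk
      exact ⟨j, by omega⟩
    · rintro ⟨j, rfl⟩
      exact ⟨S.piU ^ j, hpile j, S.Nm_piU_zpow j⟩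
  rw [h1, h1', h0', mul_one, mul_one] at key
  exact key

end Setup

end Fermat.Agent.GC.Local.Herbrand
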