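/-
GATE-C / C3-HERBRAND (helper67).  (H5a) From the Skeleton binders (a `ValuationSubring` of `E` which
is a complete DVR with finite residue field, Galois stable) to the elementary hypotheses `LocalHyp`
and the finite-index statement used by the core.
Mathlib only.
-/
import Mathlib
import Fermat.Agent.GC.Local.Herbrand.Index

set_option autoImplicit false
set_option linter.unusedSectionVars false

namespace Fermat.Agent.GC.Local.Herbrand

open Finset IsLocalRing

section DVR

variable {E : Type*} [Field E] (O : ValuationSubring E) [IsDiscreteValuationRing O]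

/-- a uniformiser of `O`, as an element of `E`. -/
theorem exists_uniformizer : ∃ π : E, ∃ hπ : π ∈ O, Irreducible (⟨π, hπ⟩ : O) := by
  obtain ⟨p, hp⟩ := IsDiscreteValuationRing.exists_irreducible O
  exact ⟨p.1, p.2, hp⟩

variable {O}
variable {π : E} {hπ : π ∈ O} (hirr : Irreducible (⟨π, hπ⟩ : O))
include hirr

theorem val_pi_lt_one : O.valuation π < 1 := by
  have : (⟨π, hπ⟩ : O) ∈ maximalIdeal O := by
    rw [hirr.maximalIdeal_eq]
    exact Ideal.mem_span_singleton_self _
  exact (O.valuation_lt_one_iff _).1 this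

theorem val_pi_ne_zero : O.valuation π ≠ 0 := by
  intro h
  have : π = 0 := (map_eq_zero _).1 h
  apply hirr.ne_zero
  ext
  exact this

/-- the value group is generated by the value of the uniformiser. -/
theorem exists_val_eq_zpow {x : E} (hx : x ≠ 0) : ∃ k : ℤ, O.valuation x = O.valuation π ^ k := by
  have key : ∀ y : E, y ∈ O → y ≠ 0 → ∃ n : ℕ, O.valuation y = O.valuation π ^ n := by
    intro y hy hy0
    have hy0' : (⟨y, hy⟩ : O) ≠ 0 := fun h => hy0 (congrArg Subtype.val h)
    obtain ⟨n, u, hu⟩ := IsDiscreteValuationRing.eq_unit_mul_pow_irreducible hy0' hirr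
    refine ⟨n, ?_⟩
    have h1 : y = (u : O).1 * π ^ n := by
      have := congrArg Subtype.val hu
      simpa using this
    rw [h1, map_mul, map_pow, O.valuation_unit u, one_mul]
  rcases O.mem_or_inv_mem x with h | h
  · obtain ⟨n, hn⟩ := key x h hx
    exact ⟨n, by rw [hn, zpow_natCast]⟩
  · obtain ⟨n, hn⟩ := key x⁻¹ h (inv_ne_zero hx)
    refine ⟨-n, ?_⟩
    rw [map_inv₀] at hn
    rw [zpow_neg, zpow_natCast, ← hn, inv_inv]

theorem zpow_le_one_iff (k : ℤ) : O.valuation π ^ k ≤ 1 ↔ 0 ≤ k := by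
  have h1 := val_pi_lt_one hirr
  have h0 : 0 < O.valuation π := zero_lt_iff.2 (val_pi_ne_zero hirr)
  constructor
  · intro h
    by_contra hk
    rw [not_le] at hk
    have : 1 < O.valuation π ^ k := by
      have hk' : 0 < -k := by omega
      have : O.valuation π ^ (-k) < 1 := zpow_lt_one₀ h0 h1 hk'
      rw [zpow_neg] at this
      exact (inv_lt_one₀ (zpow_pos h0 k)).1 this
    exact absurd h (not_le.2 this)
  · intro hk
    obtain ⟨n, rfl⟩ := Int.eq_ofNat_of_zero_le hk
    rw [zpow_natCast]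
    exact pow_le_one₀ zero_le h1.le

theorem zpow_lt_one_iff (k : ℤ) : O.valuation π ^ k < 1 ↔ 0 < k := by
  have h0 : 0 < O.valuation π := zero_lt_iff.2 (val_pi_ne_zero hirr)
  have h := zpow_le_one_iff hirr (-k)
  rw [zpow_neg, inv_le_one₀ (zpow_pos h0 k)] at h
  rw [← not_le, h]
  omega

end DVR

section Hyp

variable {F E : Type*} [Field F] [Field E] [Algebra F E]
  (O : ValuationSubring E) [IsDiscreteValuationRing O] [IsAdicComplete (maximalIdeal O) O]

/-- telescoping a `ϖ`-adic Cauchy sequence. -/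
theorem tele_aux {ϖ : E} (hϖ : ϖ ∈ O) (f : ℕ → E)
    (hf' : ∀ n, ∃ y ∈ O, f (n + 1) - f n = ϖ ^ n * y) (n N : ℕ) (hnN : n ≤ N) :
    ∃ y ∈ O, f N - f n = ϖ ^ n * y := by
  induction hnN with
  | refl => exact ⟨0, O.toSubring.zero_mem, by simp⟩
  | @step N hnN ih =>
    obtain ⟨y, hy, hy'⟩ := ih
    obtain ⟨z, hz, hz'⟩ := hf' N
    refine ⟨ϖ ^ (N - n) * z + y,
      O.toSubring.add_mem (O.toSubring.mul_mem (O.toSubring.pow_mem hϖ _) hz) hy, ?_⟩
    have : ϖ ^ n * (ϖ ^ (N - n) * z + y) = ϖ ^ N * z + ϖ ^ n * y := by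
      rw [mul_add, ← mul_assoc, ← pow_add, Nat.add_sub_cancel' hnN]
    rw [this, ← hy', ← hz']
    ring

/-- The Skeleton binders imply the elementary hypotheses of the core. -/
theorem localHyp_of_dvr (hO : ∀ (σ : E ≃ₐ[F] E) (x : E), x ∈ O → σ x ∈ O) {c : F} (hc : c ≠ 0)
    (hcO : algebraMap F E c ∈ O.nonunits) : LocalHyp O.toSubring c := by
  obtain ⟨π, hπ, hirr⟩ := exists_uniformizer O
  have hv1 : O.valuation (algebraMap F E c) < 1 := O.mem_nonunits_iff.1 hcO
  have hϖ0 : algebraMap F E c ≠ 0 := fun h => hc ((map_eq_zero (algebraMap F E)).1 h)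
  have hϖO : algebraMap F E c ∈ O := (O.valuation_le_one_iff _).1 hv1.le
  have hvpos : 0 < O.valuation (algebraMap F E c) := zero_lt_iff.2 ((map_ne_zero _).2 hϖ0)
  obtain ⟨e, he⟩ := exists_val_eq_zpow hirr hϖ0
  have hepos : 0 < e := by
    rw [he] at hv1
    exact (zpow_lt_one_iff hirr e).1 hv1
  refine ⟨hc, hϖO, ?_, ?_, hO, ?_, ?_⟩
  · -- ϖ⁻¹ ∉ O
    intro h
    have h1 := (O.valuation_le_one_iff _).2 h
    rw [map_inv₀, inv_le_one₀ hvpos] at h1
    exact absurd hv1 (not_lt.2 h1)
  · -- arch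
    intro x
    by_cases hx : x = 0
    · exact ⟨0, by rw [hx, mul_zero]; exact O.toSubring.zero_mem⟩
    obtain ⟨k, hk⟩ := exists_val_eq_zpow hirr hx
    refine ⟨(-k).toNat, (O.valuation_le_one_iff _).1 ?_⟩
    have h0 : O.valuation π ≠ 0 := val_pi_ne_zero hirr
    rw [map_mul, map_pow, he, hk, ← zpow_natCast, ← zpow_mul, ← zpow_add₀ h0,
      zpow_le_one_iff hirr]
    have h1 : (1 : ℤ) ≤ e := hepos
    have h2 : -k ≤ ((-k).toNat : ℤ) := Int.self_le_toNat (-k)
    have h3 : (0 : ℤ) ≤ ((-k).toNat : ℤ) := Int.natCast_nonneg _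
    nlinarith [mul_nonneg (sub_nonneg.2 h1) h3]
  · -- unit
    intro x hx
    have hlt : O.valuation (algebraMap F E c * x) < 1 := by
      rw [map_mul]
      calc O.valuation (algebraMap F E c) * O.valuation x
          ≤ O.valuation (algebraMap F E c) * 1 :=
            mul_le_mul_right ((O.valuation_le_one_iff _).2 hx) _
        _ < 1 := by rw [mul_one]; exact hv1
    have h1 := (O.valuation).map_one_add_of_lt hlt
    constructor
    · intro h0
      rw [h0, map_zero] at h1
      exact zero_ne_one h1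
    · apply (O.valuation_le_one_iff _).1
      rw [map_inv₀, h1, inv_one]
  · -- complete
    intro f hf hf'
    have hmem : ∀ n, f n ∈ O := hf
    set g : ℕ → O := fun n => ⟨f n, hmem n⟩ with hg
    set p : O := ⟨π, hπ⟩ with hp
    set w : O := ⟨algebraMap F E c, hϖO⟩ with hw
    have hwI : w ∈ maximalIdeal O := (O.valuation_lt_one_iff w).2 hv1
    have hcauchy : ∀ {m n : ℕ}, m ≤ n →
        g m ≡ g n [SMOD (maximalIdeal O ^ m • ⊤ : Submodule O O)] := by
      intro m n hmn
      rw [SModEq.sub_mem, smul_eq_mul, Ideal.mul_top]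
      obtain ⟨y, hy, hy'⟩ := tele_aux O hϖO f hf' m n hmn
      have : g m - g n = w ^ m * (-⟨y, hy⟩) := by
        ext
        simp only [hg, hw]
        push_cast
        rw [mul_neg, ← hy']
        ring
      rw [this]
      exact Ideal.mul_mem_right _ _ (Ideal.pow_mem_pow hwI m)
    obtain ⟨L, hL⟩ := IsPrecomplete.prec (I := maximalIdeal O) (M := O) inferInstance hcauchy
    refine ⟨L.1, L.2, fun n => ?_⟩
    -- N := e.toNat * n
    obtain ⟨e', rfl⟩ := Int.eq_ofNat_of_zero_le hepos.le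
    have he'1 : 1 ≤ e' := by exact_mod_cast hepos
    set N := e' * n with hN
    have hnN : n ≤ N := by
      rw [hN]; exact Nat.le_mul_of_pos_left n he'1
    obtain ⟨y, hy, hy'⟩ := tele_aux O hϖO f hf' n N hnN
    -- valuation of L - f N
    have hLN := hL N
    rw [SModEq.sub_mem, smul_eq_mul, Ideal.mul_top, hirr.maximalIdeal_eq,
      Ideal.span_singleton_pow, Ideal.mem_span_singleton'] at hLN
    obtain ⟨t, ht⟩ := hLN
    have hval : O.valuation ((L : E) - f N) ≤ O.valuation (algebraMap F E c) ^ n := by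
      have h1 : (L : E) - f N = -((t : E) * π ^ N) := by
        have := congrArg Subtype.val ht
        simp only [hg, hp] at this
        push_cast at this
        rw [this]
        ring
      rw [h1, Valuation.map_neg, map_mul, map_pow, he, zpow_natCast, ← pow_mul, ← hN]
      calc O.valuation (t : E) * O.valuation π ^ N ≤ 1 * O.valuation π ^ N :=
            mul_le_mul_left (O.valuation_le_one t) _
        _ = O.valuation π ^ N := one_mul _
    have hpn : (algebraMap F E c) ^ n ≠ 0 := pow_ne_zero _ hϖ0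
    refine ⟨((L : E) - f N) / (algebraMap F E c) ^ n + y, O.toSubring.add_mem ?_ hy, ?_⟩
    · apply (O.valuation_le_one_iff _).1
      rw [map_div₀, map_pow]
      exact div_le_one_of_le₀ hval zero_le
    · rw [mul_add, mul_div_cancel₀ _ hpn, ← hy']
      ring

end Hyp

/-- A subgroup whose cosets are separated by a map to a finite type has finite index. -/
theorem index_ne_zero_of_fiber {G : Type*} [Group G] (H : Subgroup G) {α : Type*} [Finite α]
    (f : G → α) (hf : ∀ a b, f a = f b → a⁻¹ * b ∈ H) : H.index ≠ 0 := by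
  classical
  have : Finite (Set.range f) :=
    Finite.of_injective (fun y : Set.range f => (y : α)) Subtype.val_injective
  have hsurj : Function.Surjective
      (fun y : Set.range f => (QuotientGroup.mk (Classical.choose y.2) : G ⧸ H)) := by
    intro q
    induction q using QuotientGroup.induction_on with
    | H g =>
      refine ⟨⟨f g, g, rfl⟩, ?_⟩
      have hch : f (Classical.choose (⟨g, rfl⟩ : ∃ g', f g' = f g)) = f g :=
        Classical.choose_spec (⟨g, rfl⟩ : ∃ g', f g' = f g)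
      exact QuotientGroup.eq.2 (hf _ _ hch)
  have : Finite (G ⧸ H) := Finite.of_surjective _ hsurj
  exact Subgroup.index_ne_zero_of_finite

section FinIdx

variable {F E : Type*} [Field F] [Field E] [Algebra F E]
  (O : ValuationSubring E) [IsDiscreteValuationRing O] [Finite (ResidueField O)]
variable {m : ℕ} [NeZero m] {c : F} {b : Module.Basis (ZMod m) F E} {s : E ≃ₐ[F] E} {c₀ : ℕ}

/-- Finite index of `VS 0 ⊔ ⟨ϖ⟩` in `Eˣ`. -/
theorem index_ne_zero_of_dvr (S : Setup O.toSubring c b s c₀) :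
    (S.VS 0 ⊔ Subgroup.zpowers S.piU).index ≠ 0 := by
  classical
  obtain ⟨π, hπ, hirr⟩ := exists_uniformizer O
  have hϖ0 : algebraMap F E c ≠ 0 := S.hyp.pi_ne
  have hv1 : O.valuation (algebraMap F E c) < 1 := by
    rw [← not_le]
    intro h
    apply S.hyp.c_inv_not_mem
    apply (O.valuation_le_one_iff _).1
    rw [map_inv₀]
    exact inv_le_one_of_one_le₀ h
  obtain ⟨e, he⟩ := exists_val_eq_zpow hirr hϖ0
  have hepos : 0 < e := by
    rw [he] at hv1
    exact (zpow_lt_one_iff hirr e).1 hv1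
  obtain ⟨e', rfl⟩ := Int.eq_ofNat_of_zero_le hepos.le
  have he'1 : 1 ≤ e' := by exact_mod_cast hepos
  have : NeZero e' := ⟨by omega⟩
  have hπ0 : O.valuation π ≠ 0 := val_pi_ne_zero hirr
  set U := O.unitGroup with hU
  set Z := Subgroup.zpowers S.piU with hZ
  -- (1) finite index of `U ⊔ Z`
  have h1 : (U ⊔ Z).index ≠ 0 := by
    have hk : ∀ x : Eˣ, ∃ k : ℤ, O.valuation (x : E) = O.valuation π ^ k :=
      fun x => exists_val_eq_zpow hirr x.ne_zero
    choose k hk using hk
    apply index_ne_zero_of_fiber (U ⊔ Z) (fun x => ((k x : ℤ) : ZMod e'))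
    intro a b' hab
    rw [ZMod.intCast_eq_intCast_iff_dvd_sub] at hab
    obtain ⟨d, hd⟩ := hab
    rw [Subgroup.mem_sup]
    refine ⟨a⁻¹ * b' * (S.piU ^ d)⁻¹, ?_, S.piU ^ d, Subgroup.zpow_mem_zpowers _ d, ?_⟩
    · rw [hU, ValuationSubring.mem_unitGroup_iff]
      simp only [Units.val_mul, Units.val_inv_eq_inv_val, Units.val_zpow_eq_zpow_val, map_mul,
        map_inv₀, map_zpow₀, Setup.coe_piU, hk, he]
      rw [zpow_natCast, ← zpow_natCast, ← zpow_mul, ← zpow_neg, ← zpow_neg, ← zpow_add₀ hπ0,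
        ← zpow_add₀ hπ0]
      have : -k a + k b' + -((e' : ℤ) * d) = 0 := by omega
      rw [this, zpow_zero]
    · rw [inv_mul_cancel_right]
  -- (2) finite relative index of `VS 0` in `U`
  have h2 : (S.VS 0).relIndex U ≠ 0 := by
    set n := e' * (2 * (c₀ + 1)) with hn
    have : Finite (↥O ⧸ maximalIdeal ↥O) := ‹Finite (ResidueField O)›
    have : Finite (↥O ⧸ maximalIdeal ↥O ^ n) :=
      Ideal.finite_quotient_pow (IsNoetherian.noetherian _) n
    have hmemU : ∀ u : U, ((u : Eˣ) : E) ∈ O := fun u =>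
      (O.valuation_le_one_iff _).1 (le_of_eq ((O.mem_unitGroup_iff _).1 u.2))
    rw [Subgroup.relIndex]
    apply index_ne_zero_of_fiber _
      (fun u : U => (Ideal.Quotient.mk (maximalIdeal ↥O ^ n) ⟨((u : Eˣ) : E), hmemU u⟩))
    intro a b' hab
    rw [Subgroup.mem_subgroupOf]
    rw [Ideal.Quotient.eq, hirr.maximalIdeal_eq, Ideal.span_singleton_pow,
      Ideal.mem_span_singleton'] at hab
    obtain ⟨t, ht⟩ := hab
    have hva : O.valuation ((a : Eˣ) : E) = 1 := (O.mem_unitGroup_iff _).1 a.2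
    have hdiff : O.valuation (((b' : Eˣ) : E) - ((a : Eˣ) : E)) ≤
        O.valuation (algebraMap F E c) ^ (2 * (c₀ + 1)) := by
      have h3 : ((b' : Eˣ) : E) - ((a : Eˣ) : E) = -((t : E) * π ^ n) := by
        have := congrArg Subtype.val ht
        push_cast at this
        rw [this]
        ring
      rw [h3, Valuation.map_neg, map_mul, map_pow, he, zpow_natCast, ← pow_mul, ← hn]
      calc O.valuation (t : E) * O.valuation π ^ n ≤ 1 * O.valuation π ^ n :=
            mul_le_mul_left (O.valuation_le_one t) _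
        _ = O.valuation π ^ n := one_mul _
    -- the quotient (a⁻¹ b - 1) / ϖ^(2(c₀+1)) is integral
    set K := 2 * (c₀ + 1) with hK
    have hpK : (algebraMap F E c) ^ K ≠ 0 := pow_ne_zero _ hϖ0
    set t' : E := ((((a : Eˣ)⁻¹ * (b' : Eˣ) : Eˣ) : E) - 1) / (algebraMap F E c) ^ K with ht'
    have ht'O : t' ∈ O := by
      apply (O.valuation_le_one_iff _).1
      have h4 : (((a : Eˣ)⁻¹ * (b' : Eˣ) : Eˣ) : E) - 1
          = (((b' : Eˣ) : E) - ((a : Eˣ) : E)) / ((a : Eˣ) : E) := by
        rw [Units.val_mul, Units.val_inv_eq_inv_val]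
        field_simp
      rw [ht', h4, map_div₀, map_div₀, hva, div_one, map_pow]
      exact div_le_one_of_le₀ hdiff zero_le
    refine ⟨(algebraMap F E c) ^ (c₀ + 1) * t',
      S.pow_mul_mem_Lat_of_mem (by omega) ht'O, ?_⟩
    have : (((a : Eˣ)⁻¹ * (b' : Eˣ) : Eˣ) : E) = 1 + (algebraMap F E c) ^ K * t' := by
      rw [ht', mul_div_cancel₀ _ hpK]
      ring
    rw [Subgroup.coe_mul, Subgroup.coe_inv, this, hK, ← mul_assoc, ← pow_add]
    congr 3
    omega
  -- (3) combine
  set A' := S.VS 0 ⊔ Z with hA'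
  have hVU : S.VS 0 ≤ U := by
    intro u hu
    rw [hU, ValuationSubring.mem_unitGroup_iff]
    have h3 := (O.valuation_le_one_iff _).2 (S.val_mem_of_VSet hu)
    have h4 := (O.valuation_le_one_iff _).2 (S.inv_val_mem_of_VSet (n := c₀ + 1 + 0) (by omega) hu)
    rw [Units.val_inv_eq_inv_val, map_inv₀] at h4
    have hpos : 0 < O.valuation (u : E) := zero_lt_iff.2 ((map_ne_zero _).2 u.ne_zero)
    exact le_antisymm h3 ((inv_le_one₀ hpos).1 h4)
  have hle : A' ≤ U ⊔ Z := sup_le (hVU.trans le_sup_left) le_sup_right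
  have h3 : A'.relIndex (U ⊔ Z) ≠ 0 := by
    have h4 : U ⊔ Z = U ⊔ A' := by
      rw [hA', ← sup_assoc, sup_eq_left.2 hVU]
    rw [h4, Subgroup.relIndex_sup_right]
    have hdvd := Subgroup.relIndex_dvd_of_le_left U (le_sup_left : S.VS 0 ≤ A')
    intro h0
    rw [h0] at hdvd
    exact h2 (Nat.eq_zero_of_zero_dvd hdvd)
  rw [← Subgroup.relIndex_mul_index hle]
  exact mul_ne_zero h3 h1

end FinIdx

end Fermat.Agent.GC.Local.Herbrand
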