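/-
GATE-C / C3-HERBRAND (helper67).  Elementary, universe-polymorphic Hilbert 90 for a cyclic group of
automorphisms, in the `(Dm, Nm)` form of the core.
Mathlib only.
-/
import Mathlib
import Fermat.Agent.GC.Local.Herbrand.Graded

set_option autoImplicit false
set_option linter.unusedSectionVars false

namespace Fermat.Agent.GC.Local.Herbrand

open Finset

variable {F E : Type*} [Field F] [Field E] [Algebra F E]

/-- **Hilbert 90** (cyclic form): if `1, s, …, s^(m-1)` are pairwise distinct and `s^m = 1`, every
unit of norm one is of the form `s y / y`. -/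
theorem hilbert90 (s : E ≃ₐ[F] E) (m : ℕ) [NeZero m] (hsm : s ^ m = 1)
    (hinj : ∀ i < m, ∀ j < m, s ^ i = s ^ j → i = j) (x : Eˣ) (hx : Nm m s x = 1) :
    ∃ y : Eˣ, Dm s y = x := by
  classical
  -- work with `u = x⁻¹`
  set u : Eˣ := x⁻¹ with hu
  have hNu : Nm m s u = 1 := by rw [hu, map_inv, hx, inv_one]
  -- partial norms
  set a : ℕ → E := fun i => ∏ j ∈ Finset.range i, (s ^ j) (u : E) with ha
  have ha0 : a 0 = 1 := by simp [ha]
  have ham : a m = 1 := by
    have := congrArg Units.val hNu
    rw [Nm_apply, Units.coe_prod] at this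
    simpa [ha] using this
  have hstep : ∀ i, (u : E) * s (a i) = a (i + 1) := by
    intro i
    simp only [ha]
    rw [Finset.prod_range_succ', map_prod, pow_zero, AlgEquiv.one_apply, mul_comm]
    congr 1
    refine Finset.prod_congr rfl fun j _ => ?_
    rw [pow_succ']
    rfl
  -- the resolvent
  set T : E → E := fun θ => ∑ i ∈ Finset.range m, a i * (s ^ i) θ with hT
  -- `T` is not identically zero, by Dedekind
  have hne : ∃ θ, T θ ≠ 0 := by
    by_contra hall
    rw [not_exists] at hall
    have hall' : ∀ θ, T θ = 0 := fun θ => not_not.1 (hall θ)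
    have hli := linearIndependent_monoidHom E E
    have hinj' : Function.Injective (fun i : Fin m => ((s ^ (i : ℕ) : E ≃ₐ[F] E) : E →* E)) := by
      intro i j hij
      apply Fin.ext
      apply hinj i i.2 j j.2
      ext θ
      have := DFunLike.congr_fun hij θ
      simpa using this
    have hli' := hli.comp _ hinj'
    rw [Fintype.linearIndependent_iff] at hli'
    have h0 := hli' (fun i => a i) (by
      funext θ
      have := hall' θ
      simp only [hT] at this
      rw [← Fin.sum_univ_eq_sum_range (fun i => a i * (s ^ i) θ) m] at this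
      simpa using this) ⟨0, NeZero.pos m⟩
    rw [ha0] at h0
    exact one_ne_zero h0
  obtain ⟨θ, hθ⟩ := hne
  have hkey : (u : E) * s (T θ) = T θ := by
    simp only [hT]
    rw [map_sum, Finset.mul_sum]
    have h1 : ∀ i ∈ Finset.range m, (u : E) * s (a i * (s ^ i) θ) = a (i + 1) * (s ^ (i + 1)) θ := by
      intro i _
      rw [map_mul, ← mul_assoc, hstep, pow_succ']
      rfl
    rw [Finset.sum_congr rfl h1]
    have h2 := Finset.sum_range_succ (fun i => a i * (s ^ i) θ) m
    have h3 := Finset.sum_range_succ' (fun i => a i * (s ^ i) θ) m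
    rw [h3] at h2
    simp only [ham, ha0, hsm, pow_zero] at h2
    exact add_right_cancel h2
  refine ⟨Units.mk0 (T θ) hθ, ?_⟩
  rw [Dm_apply, div_eq_iff_eq_mul]
  ext
  rw [coe_sU, Units.val_mk0, Units.val_mul, Units.val_mk0]
  -- s (Tθ) = x * Tθ  from  u * s (Tθ) = Tθ, u = x⁻¹
  have hxu : (x : E) * (u : E) = 1 := by
    rw [hu, ← Units.val_mul, mul_inv_cancel, Units.val_one]
  calc s (T θ) = (x : E) * ((u : E) * s (T θ)) := by rw [← mul_assoc, hxu, one_mul]
    _ = (x : E) * T θ := by rw [hkey]

end Fermat.Agent.GC.Local.Herbrand
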