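/-
GATE-C / C3-HERBRAND (helper67).  (H5b) The local norm index theorem for cyclic extensions in the
Skeleton binders: `[Fˣ : N Eˣ] = [E : F]`.
-/
import Mathlib
import Fermat.Agent.GC.Local.Herbrand.DVR
import Fermat.Agent.GC.Local.Herbrand.H90

set_option autoImplicit false
set_option linter.unusedSectionVars false

namespace Fermat.Agent.GC.Local.Herbrand

open Finset IsLocalRing

/-- Product over `ZMod m` as a product over `range m`. -/
theorem prod_zmod_eq_prod_range {m : ℕ} [NeZero m] {M : Type*} [CommMonoid M] (g : ZMod m → M) :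
    ∏ j : ZMod m, g j = ∏ t ∈ Finset.range m, g (t : ZMod m) := by
  obtain ⟨n, rfl⟩ : ∃ n, m = n + 1 := ⟨m - 1, (Nat.sub_add_cancel (NeZero.pos m)).symm⟩
  have h := Fin.prod_univ_eq_prod_range (fun t => g (t : ZMod (n + 1))) (n + 1)
  rw [← h]
  refine Finset.prod_congr rfl fun i _ => ?_
  congr 1
  exact (ZMod.natCast_zmod_val (n := n + 1) i).symm

section Gen

variable {F E : Type*} [Field F] [Field E] [Algebra F E] [FiniteDimensional F E] [IsGalois F E]
variable {m : ℕ} [NeZero m] {s : E ≃ₐ[F] E}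

/-- The bijection `ZMod m ≃ Gal(E/F)`, `i ↦ s ^ i.val`, for a generator `s`. -/
theorem bijective_pow_val (hs : ∀ σ : E ≃ₐ[F] E, σ ∈ Subgroup.zpowers s)
    (hm : Nat.card (E ≃ₐ[F] E) = m) :
    Function.Bijective (fun i : ZMod m => s ^ i.val) := by
  have hord : orderOf s = m := by rw [orderOf_eq_card_of_forall_mem_zpowers hs, hm]
  rw [Nat.bijective_iff_injective_and_card]
  refine ⟨fun i j hij => ?_, by rw [Nat.card_zmod, hm]⟩
  have hi : i.val ∈ Set.Iio (orderOf s) := by rw [hord]; exact ZMod.val_lt i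
  have hj : j.val ∈ Set.Iio (orderOf s) := by rw [hord]; exact ZMod.val_lt j
  exact ZMod.val_injective m (pow_injOn_Iio_orderOf hi hj hij)

theorem pow_val_add_one (hsm : s ^ m = 1) (i : ZMod m) : s ^ (i + 1).val = s ^ (i.val + 1) := by
  have h1 : ((i.val + 1 : ℕ) : ZMod m) = i + 1 := by
    push_cast
    rw [ZMod.natCast_zmod_val]
  have h2 : (i + 1).val = (i.val + 1) % m := by
    rw [← h1, ZMod.val_natCast]
  rw [h2]
  conv_rhs => rw [← Nat.mod_add_div (i.val + 1) m]
  rw [pow_add, pow_mul, hsm, one_pow, mul_one]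

/-- `N` is the norm. -/
theorem Nm_eq_norm (hs : ∀ σ : E ≃ₐ[F] E, σ ∈ Subgroup.zpowers s)
    (hm : Nat.card (E ≃ₐ[F] E) = m) (x : Eˣ) :
    Nm m s x = Units.map (algebraMap F E : F →* E) (Units.map (Algebra.norm F : E →* F) x) := by
  ext
  rw [Nm_apply, Units.coe_prod]
  simp only [coe_sU, Units.coe_map, MonoidHom.coe_coe]
  rw [Algebra.norm_eq_prod_automorphisms]
  have hb := bijective_pow_val hs hm
  rw [← (Equiv.ofBijective _ hb).prod_comp (fun σ : E ≃ₐ[F] E => σ (x : E)),
    prod_zmod_eq_prod_range]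
  refine Finset.prod_congr rfl fun t ht => ?_
  simp only [Equiv.ofBijective_apply]
  rw [ZMod.val_natCast_of_lt (Finset.mem_range.1 ht)]

/-- `ker D` is the image of `Fˣ`. -/
theorem ker_Dm_eq (hs : ∀ σ : E ≃ₐ[F] E, σ ∈ Subgroup.zpowers s) :
    (Dm s).ker = (Units.map (algebraMap F E : F →* E)).range := by
  ext x
  rw [MonoidHom.mem_ker, Dm_apply, div_eq_one, MonoidHom.mem_range]
  constructor
  · intro hx
    have hfix : ∀ σ : E ≃ₐ[F] E, σ (x : E) = x := by
      intro σ
      obtain ⟨k, rfl⟩ := Subgroup.mem_zpowers_iff.1 (hs σ)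
      have h1 : s (x : E) = x := by
        have := congrArg Units.val hx
        simpa using this
      have hmem : s ∈ MulAction.stabilizer (E ≃ₐ[F] E) (x : E) := h1
      exact (MulAction.stabilizer (E ≃ₐ[F] E) (x : E)).zpow_mem hmem k
    obtain ⟨y, hy⟩ := (IsGalois.mem_range_algebraMap_iff_fixed (F := F) (x : E)).2 hfix
    have hy0 : y ≠ 0 := by
      rintro rfl
      rw [map_zero] at hy
      exact x.ne_zero hy.symm
    exact ⟨Units.mk0 y hy0, Units.ext hy⟩
  · rintro ⟨y, rfl⟩
    ext
    simp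

/-- From the abstract Herbrand computation to the norm index. -/
theorem norm_index_of_relIndex (hs : ∀ σ : E ≃ₐ[F] E, σ ∈ Subgroup.zpowers s)
    (hm : Nat.card (E ≃ₐ[F] E) = m) (h : (Nm m s).range.relIndex (Dm s).ker = m) :
    (MonoidHom.range (Units.map (Algebra.norm F : E →* F))).index = m := by
  set ι : Fˣ →* Eˣ := Units.map (algebraMap F E : F →* E) with hι
  have hinj : Function.Injective ι :=
    Units.map_injective (FaithfulSMul.algebraMap_injective F E)
  have hN : (Nm m s).range = (MonoidHom.range (Units.map (Algebra.norm F : E →* F))).map ι := by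
    ext y
    constructor
    · rintro ⟨x, rfl⟩
      exact ⟨_, ⟨x, rfl⟩, (Nm_eq_norm hs hm x).symm⟩
    · rintro ⟨_, ⟨x, rfl⟩, rfl⟩
      exact ⟨x, Nm_eq_norm hs hm x⟩
  have hK : (Dm s).ker = (⊤ : Subgroup Fˣ).map ι := by
    rw [ker_Dm_eq hs, MonoidHom.range_eq_map]
  rw [hN, hK, Subgroup.relIndex_map_map_of_injective _ _ hinj, Subgroup.relIndex_top_right] at h
  exact h

end Gen

section Final

variable {F E : Type*} [Field F] [Field E] [Algebra F E] [FiniteDimensional F E] [IsGalois F E]
  (O : ValuationSubring E) [IsDiscreteValuationRing O] [Finite (ResidueField O)]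
  [IsAdicComplete (maximalIdeal O) O]

/-- **Local norm index theorem** (cyclic case): for a finite cyclic Galois extension `E/F` and a
Galois-stable valuation ring `O` of `E` which is a complete DVR with finite residue field and does
not contain `F`, the norm group has index `[E : F]` in `Fˣ`. -/
theorem norm_index_eq_finrank [IsCyclic (E ≃ₐ[F] E)]
    (hO : ∀ (σ : E ≃ₐ[F] E) (x : E), x ∈ O → σ x ∈ O)
    (hF : ∃ c : F, c ≠ 0 ∧ algebraMap F E c ∈ O.nonunits) :
    (MonoidHom.range (Units.map (Algebra.norm F : E →* F))).index = Module.finrank F E := by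
  classical
  obtain ⟨s, hs⟩ := IsCyclic.exists_generator (α := E ≃ₐ[F] E)
  obtain ⟨c, hc, hcO⟩ := hF
  have hcard : Nat.card (E ≃ₐ[F] E) = Module.finrank F E := IsGalois.card_aut_eq_finrank F E
  generalize hm : Module.finrank F E = m at hcard ⊢
  have hm0 : m ≠ 0 := by
    rw [← hm]; exact Module.finrank_pos.ne'
  have : NeZero m := ⟨hm0⟩
  have hord : orderOf s = m := by rw [orderOf_eq_card_of_forall_mem_zpowers hs, hcard]
  have hsm : s ^ m = 1 := by rw [← hord]; exact pow_orderOf_eq_one s
  have hH := localHyp_of_dvr O hO hc hcO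
  -- the scaled normal basis indexed by `ZMod m`
  have hb := bijective_pow_val hs hcard
  obtain ⟨k, hk⟩ := hH.arch (IsGalois.normalBasis F E 1)
  have hck : c ^ k ≠ 0 := pow_ne_zero _ hc
  set b : Module.Basis (ZMod m) F E :=
    ((IsGalois.normalBasis F E).reindex (Equiv.ofBijective _ hb).symm).unitsSMul
      (fun _ => Units.mk0 (c ^ k) hck) with hbdef
  have hbi : ∀ i : ZMod m, b i
      = (s ^ i.val) ((algebraMap F E c) ^ k * IsGalois.normalBasis F E 1) := by
    intro i
    rw [hbdef, Module.Basis.unitsSMul_apply, Module.Basis.reindex_apply, Equiv.symm_symm,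
      Equiv.ofBijective_apply, IsGalois.normalBasis_apply, Units.smul_def, Units.val_mk0,
      Algebra.smul_def, map_mul, map_pow, map_pow, AlgEquiv.commutes]
  have hbO : ∀ i, b i ∈ O.toSubring := fun i => by
    rw [hbi]; exact hH.stable _ _ hk
  have hbs : ∀ i, s (b i) = b (i + 1) := by
    intro i
    rw [hbi, hbi, pow_val_add_one hsm, pow_succ']
    rfl
  obtain ⟨c₀, hc₀⟩ := exists_pow_mul_mem_Lat (b := b) hH
  have S : Setup O.toSubring c b s c₀ := ⟨hH, hbO, hbs, hsm, hc₀⟩
  have hinj : ∀ i < m, ∀ j < m, s ^ i = s ^ j → i = j := by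
    intro i hi j hj hij
    exact pow_injOn_Iio_orderOf (by rw [hord]; exact hi) (by rw [hord]; exact hj) hij
  have hrel := S.norm_relIndex (hilbert90 s m hsm hinj) (index_ne_zero_of_dvr O S)
  exact norm_index_of_relIndex hs hcard hrel

end Final

end Fermat.Agent.GC.Local.Herbrand
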