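/-
GATE-C / C3-HERBRAND (helper67).  Cohomological form of the local norm index theorem:
`Nat.card H²(Gal(E/F), Eˣ) = [E : F]` for cyclic `E/F` (via helper68's CYC-BRIDGE), and the
prime-degree corollaries.
-/
import Mathlib
import Fermat.Agent.GC.Local.Herbrand.Main
import Fermat.Agent.GC.Tate.CyclicCard

set_option autoImplicit false
set_option linter.unusedSectionVars false

namespace Fermat.Agent.GC.Local.Herbrand

open Finset IsLocalRing Fermat.Agent.GC.CycBridge

section PrimeDegree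

variable {F E : Type*} [Field F] [Field E] [Algebra F E] [FiniteDimensional F E] [IsGalois F E]
  (O : ValuationSubring E) [IsDiscreteValuationRing O] [Finite (ResidueField O)]
  [IsAdicComplete (maximalIdeal O) O]

/-- A Galois extension of prime degree is cyclic. -/
theorem isCyclic_of_finrank_prime {p : ℕ} (hp : p.Prime) (hdeg : Module.finrank F E = p) :
    IsCyclic (E ≃ₐ[F] E) := by
  have : Fact p.Prime := ⟨hp⟩
  exact isCyclic_of_prime_card (p := p) (by rw [IsGalois.card_aut_eq_finrank, hdeg])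

/-- **Local norm index, prime degree**: `[Fˣ : N Eˣ] = p`. -/
theorem norm_index_eq_prime {p : ℕ} (hp : p.Prime) (hdeg : Module.finrank F E = p)
    (hO : ∀ (σ : E ≃ₐ[F] E) (x : E), x ∈ O → σ x ∈ O)
    (hF : ∃ c : F, c ≠ 0 ∧ algebraMap F E c ∈ O.nonunits) :
    (MonoidHom.range (Units.map (Algebra.norm F : E →* F))).index = p := by
  have := isCyclic_of_finrank_prime hp hdeg
  rw [norm_index_eq_finrank O hO hF, hdeg]

end PrimeDegree

section Cohom

variable {F E : Type} [Field F] [Field E] [Algebra F E] [FiniteDimensional F E] [IsGalois F E]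

theorem mDlt_eq_Dm (s : E ≃ₐ[F] E) : mDlt (M := Eˣ) s = Dm s := by
  ext x
  rfl

theorem mNrm_eq (x : Eˣ) : mNrm (E ≃ₐ[F] E) (M := Eˣ) x
    = Units.map (algebraMap F E : F →* E) (Units.map (Algebra.norm F : E →* F) x) := by
  ext
  rw [mNrm_apply, Units.coe_prod]
  simp only [Units.coe_map, MonoidHom.coe_coe]
  rw [Algebra.norm_eq_prod_automorphisms]
  rfl

/-- For a cyclic extension, `Nat.card H²(Gal(E/F), Eˣ) = [Fˣ : N Eˣ]` (no local hypothesis). -/
theorem card_H2_eq_norm_index [IsCyclic (E ≃ₐ[F] E)] :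
    Nat.card (groupCohomology.H2 (Rep.ofAlgebraAutOnUnits F E))
      = (MonoidHom.range (Units.map (Algebra.norm F : E →* F))).index := by
  classical
  obtain ⟨s, hs⟩ := IsCyclic.exists_generator (α := E ≃ₐ[F] E)
  set ι : Fˣ →* Eˣ := Units.map (algebraMap F E : F →* E) with hι
  have hinj : Function.Injective ι :=
    Units.map_injective (FaithfulSMul.algebraMap_injective F E)
  have hN : (mNrm (E ≃ₐ[F] E) (M := Eˣ)).range
      = (MonoidHom.range (Units.map (Algebra.norm F : E →* F))).map ι := by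
    ext y
    constructor
    · rintro ⟨x, rfl⟩
      exact ⟨_, ⟨x, rfl⟩, (mNrm_eq x).symm⟩
    · rintro ⟨_, ⟨x, rfl⟩, rfl⟩
      exact ⟨x, mNrm_eq x⟩
  have hK : (mDlt (M := Eˣ) s).ker = (⊤ : Subgroup Fˣ).map ι := by
    rw [mDlt_eq_Dm, ker_Dm_eq hs, MonoidHom.range_eq_map]
  have h := card_H2_mul_of_group (G := E ≃ₐ[F] E) (M := Eˣ) s hs
  rw [hN, hK, Subgroup.relIndex_map_map_of_injective _ _ hinj, Subgroup.relIndex_top_right] at h
  exact h

variable (O : ValuationSubring E) [IsDiscreteValuationRing O] [Finite (ResidueField O)]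
  [IsAdicComplete (maximalIdeal O) O]

/-- **`Nat.card H²(Gal(E/F), Eˣ) = [E : F]`** for a cyclic extension of local fields
(Skeleton `card_H2_of_isCyclic`). -/
theorem card_H2_of_isCyclic [IsCyclic (E ≃ₐ[F] E)]
    (hO : ∀ (σ : E ≃ₐ[F] E) (x : E), x ∈ O → σ x ∈ O)
    (hF : ∃ c : F, c ≠ 0 ∧ algebraMap F E c ∈ O.nonunits) :
    Nat.card (groupCohomology.H2 (Rep.ofAlgebraAutOnUnits F E)) = Module.finrank F E := by
  rw [card_H2_eq_norm_index, norm_index_eq_finrank O hO hF]

/-- prime degree: `Nat.card H² = p`. -/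
theorem card_H2_of_finrank_prime {p : ℕ} (hp : p.Prime) (hdeg : Module.finrank F E = p)
    (hO : ∀ (σ : E ≃ₐ[F] E) (x : E), x ∈ O → σ x ∈ O)
    (hF : ∃ c : F, c ≠ 0 ∧ algebraMap F E c ∈ O.nonunits) :
    Nat.card (groupCohomology.H2 (Rep.ofAlgebraAutOnUnits F E)) = p := by
  have := isCyclic_of_finrank_prime hp hdeg
  rw [card_H2_of_isCyclic O hO hF, hdeg]

end Cohom

end Fermat.Agent.GC.Local.Herbrand
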